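/-
S19 / S32 (flatness).  Basic definitions for Part A (pure algebra).  Owner: helper32.

Route: a finite Galois module `M` is "flat at p" as soon as the function algebra `M → ℚ̄` contains a
*Hopf order*: a finite `ℤ_(p)`-subalgebra of Galois-equivariant functions which separates points and
is closed under `h ↦ ((x, y) ↦ h (x + y))`.
-/
import Mathlib
import Fermat.Prelude.Def_GaloisRep_Flat
import Fermat.Prelude.Def_FLTPrelim_Ramification

set_option autoImplicit false

namespace Fermat.Agent.S19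

/-- `ℚ̄`. -/
abbrev Qb : Type := AlgebraicClosure ℚ

/-- The absolute Galois group of `ℚ`. -/
abbrev Gal : Type := Qb ≃ₐ[ℚ] Qb

/-- `ℤ_(p)` as in the frozen statements. -/
abbrev Rl (p : ℕ) : Subring ℚ := GaloisRep.ratLocalizedAt p

/-- `M` is, Galois-equivariantly, the group of `ℚ̄`-points of a finite flat commutative group scheme
over `ℤ_(p)` (exactly the shape occurring in the frozen S19 and in `GaloisRepAdic.IsFlatAt`). -/
def IsFlatModule (p : ℕ) (M : Type) [AddCommGroup M] [DistribMulAction Gal M] : Prop :=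
  ∃ (H : Type) (_ : CommRing H) (_ : HopfAlgebra (Rl p) H),
    Module.Finite (Rl p) H ∧ Module.Flat (Rl p) H ∧ Coalgebra.IsCocomm (Rl p) H ∧
    ∃ e : WithConv (H →ₐ[Rl p] Qb) ≃ M,
      (∀ f g : WithConv (H →ₐ[Rl p] Qb), e (f * g) = e f + e g) ∧
      ∀ (σ : Gal) (f g : WithConv (H →ₐ[Rl p] Qb)), (∀ h : H, g h = σ (f h)) → e g = σ • e f

/-- The functions `(x, y) ↦ a x * b y` with `a, b ∈ H`. -/
def prodFun {R K X Y : Type} [CommRing R] [Field K] [Algebra R K]
    (H : Subalgebra R (X → K)) (H' : Subalgebra R (Y → K)) : Set (X × Y → K) :=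
  {F | ∃ a ∈ H, ∃ b ∈ H', F = fun q => a q.1 * b q.2}

/-- A Hopf order in the function algebra of the Galois module `M`. -/
structure IsHopfOrder (p : ℕ) {M : Type} [AddCommGroup M] [DistribMulAction Gal M]
    (H : Subalgebra (Rl p) (M → Qb)) : Prop where
  equivariant : ∀ h ∈ H, ∀ (σ : Gal) (x : M), h (σ • x) = σ (h x)
  fg : (Subalgebra.toSubmodule H).FG
  separates : ∀ x y : M, x ≠ y → ∃ h ∈ H, h x ≠ h y
  comul : ∀ h ∈ H, (fun q : M × M => h (q.1 + q.2)) ∈ Submodule.span (Rl p) (prodFun H H)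

/-- `M` admits a Hopf order. -/
def HasHopfOrder (p : ℕ) (M : Type) [AddCommGroup M] [DistribMulAction Gal M] : Prop :=
  ∃ H : Subalgebra (Rl p) (M → Qb), IsHopfOrder p H

/-- Galois-equivariant functions with values integral over `ℤ_(p)`. -/
def IsIntEquiv (p : ℕ) {W : Type} [MulAction Gal W] (s : W → Qb) : Prop :=
  (∀ (σ : Gal) (w : W), s (σ • w) = σ (s w)) ∧ ∀ w, IsIntegral (Rl p) (s w)

/-- `f` lies in the `A`-span of the equivariant integral functions. -/
def InSpan (p : ℕ) (A : ValuationSubring Qb) {W : Type} [MulAction Gal W] (f : W → Qb) : Prop :=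
  ∃ (n : ℕ) (a : Fin n → Qb) (s : Fin n → W → Qb),
    (∀ i, a i ∈ A) ∧ (∀ i, IsIntEquiv p (s i)) ∧ f = fun w => ∑ i, a i * s i w

/-- `H` has an `R`-basis which is a `K`-basis of the whole function space. -/
def IsFullLattice {R K X : Type} [CommRing R] [Field K] [Algebra R K]
    (H : Subalgebra R (X → K)) : Prop :=
  ∃ (ι : Type) (_ : Fintype ι) (b : Module.Basis ι R H),
    LinearIndependent K (fun i => ((b i : H) : X → K)) ∧
      Submodule.span K (Set.range fun i => ((b i : H) : X → K)) = ⊤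

open scoped TensorProduct in
/-- The multiplication map `H ⊗ H' → (X × Y → K)`, `a ⊗ b ↦ ((x, y) ↦ a x * b y)`. -/
noncomputable def mulMap {R K X Y : Type} [CommRing R] [Field K] [Algebra R K]
    (H : Subalgebra R (X → K)) (H' : Subalgebra R (Y → K)) : H ⊗[R] H' →ₐ[R] (X × Y → K) :=
  Algebra.TensorProduct.productMap
    ((AlgHom.pi fun q : X × Y => (Pi.evalAlgHom R (fun _ : X => K) q.1)).comp H.val)
    ((AlgHom.pi fun q : X × Y => (Pi.evalAlgHom R (fun _ : Y => K) q.2)).comp H'.val)

end Fermat.Agent.S19
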