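/-
S19 Part A, node A0: the base ring `ℤ_(p)`.
-/
import Fermat.Agent.S19.Defs
import Fermat.Agent.S28.ZlRing
import Fermat.Agent.Lib.Frobenius.Exists

set_option autoImplicit false

namespace Fermat.Agent.S19

/-- A0a -/
theorem Rl_isPrincipalIdealRing (p : ℕ) [Fact p.Prime] : IsPrincipalIdealRing (Rl p) :=
  Fermat.Agent.S28.ZlRing.isPrincipalIdealRing p

/-- A0b : `ℤ_(p)` is integrally closed in `ℚ`, in the form we use. -/
theorem mem_Rl_of_isIntegral (p : ℕ) [Fact p.Prime] (x : ℚ)
    (hx : IsIntegral (Rl p) (algebraMap ℚ Qb x)) : x ∈ Rl p := by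
  have h1 : IsIntegral (Rl p) x := (isIntegral_algebraMap_iff (algebraMap ℚ Qb).injective).1 hx
  have := Fermat.Agent.S28.ZlRing.isIntegrallyClosed p
  have := Fermat.Agent.S28.ZlRing.isFractionRing p
  obtain ⟨y, hy⟩ := (IsIntegrallyClosed.isIntegral_iff (R := Rl p) (K := ℚ)).1 h1
  rw [← hy]
  exact y.2

theorem BaseRing.isAlgClosure_rat : IsAlgClosure ℚ Qb := by
  have h : (DivisionRing.toRatAlgebra : Algebra ℚ (AlgebraicClosure ℚ)) =
      AlgebraicClosure.instAlgebra ℚ := Subsingleton.elim _ _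
  rw [h]
  infer_instance

/-- an element integral over a ring mapping into a valuation subring lies in it -/
theorem BaseRing.mem_of_isIntegral_of_forall_mem {R K : Type*} [CommRing R] [Field K] [Algebra R K]
    (V : ValuationSubring K) (h : ∀ r : R, algebraMap R K r ∈ V) {x : K} (hx : IsIntegral R x) :
    x ∈ V := by
  have h1 : IsIntegral V x :=
    IsIntegral.map_of_comp_eq ((algebraMap R K).codRestrict V h) (RingHom.id K) (by ext; rfl) hx
  obtain ⟨y, hy⟩ := (IsIntegrallyClosed.isIntegral_iff (R := V) (K := K)).1 h1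
  rw [← hy]
  exact y.2

/-- the inverse of an integer prime to `p` lies in every valuation ring over `p` -/
theorem BaseRing.inv_natCast_mem {p : ℕ} (A : ValuationSubring Qb) (hA : A.LiesOverPrime p)
    {d : ℕ} (hd : d.Coprime p) : ((d : Qb))⁻¹ ∈ A := by
  have hp : A.valuation (p : Qb) < 1 := hA
  have hint : ∀ n : ℤ, A.valuation (n : Qb) ≤ 1 := fun n =>
    (A.valuation_le_one_iff _).2 (intCast_mem A n)
  have hbez : ((Nat.gcdA d p : ℤ) : Qb) * (d : Qb) + ((Nat.gcdB d p : ℤ) : Qb) * (p : Qb) = 1 := by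
    have h := Nat.gcd_eq_gcd_ab d p
    rw [hd] at h
    have h2 : ((1 : ℕ) : ℤ) = Nat.gcdA d p * d + Nat.gcdB d p * p := by rw [h]; ring
    have h3 := congrArg (fun z : ℤ => (z : Qb)) h2
    push_cast at h3
    exact h3.symm
  have hd1 : A.valuation (d : Qb) = 1 := by
    have hle : A.valuation (d : Qb) ≤ 1 := (A.valuation_le_one_iff _).2 (natCast_mem A d)
    refine le_antisymm hle (not_lt.1 fun hlt => ?_)
    have h1 : A.valuation (((Nat.gcdA d p : ℤ) : Qb) * (d : Qb)) < 1 := by
      rw [map_mul]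
      exact lt_of_le_of_lt (mul_le_of_le_one_left' (hint _)) hlt
    have h2 : A.valuation (((Nat.gcdB d p : ℤ) : Qb) * (p : Qb)) < 1 := by
      rw [map_mul]
      exact lt_of_le_of_lt (mul_le_of_le_one_left' (hint _)) hp
    have h3 := A.valuation.map_add_lt h1 h2
    rw [hbez, map_one] at h3
    exact lt_irrefl _ h3
  rw [← A.valuation_le_one_iff, map_inv₀, hd1, inv_one]

/-- the image of `ℤ_(p)` lies in every valuation ring over `p` -/
theorem BaseRing.algebraMap_mem {p : ℕ} (A : ValuationSubring Qb) (hA : A.LiesOverPrime p)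
    (r : Rl p) : algebraMap (Rl p) Qb r ∈ A := by
  have h1 : algebraMap (Rl p) Qb r = ((r : ℚ).num : Qb) * (((r : ℚ).den : Qb))⁻¹ := by
    have h2 : algebraMap (Rl p) Qb r = algebraMap ℚ Qb (r : ℚ) := rfl
    rw [h2]
    conv_lhs => rw [← Rat.num_div_den (r : ℚ)]
    rw [map_div₀, div_eq_mul_inv]
    simp
  rw [h1]
  exact mul_mem (intCast_mem A _) (BaseRing.inv_natCast_mem A hA r.2)

/-- A0d : conversely. -/
theorem mem_of_isIntegral (p : ℕ) [Fact p.Prime] (x : Qb) (hx : IsIntegral (Rl p) x)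
    (A : ValuationSubring Qb) (hA : A.LiesOverPrime p) : x ∈ A :=
  BaseRing.mem_of_isIntegral_of_forall_mem A (BaseRing.algebraMap_mem A hA) hx

/-- A0c : an element of `ℚ̄` lying in every valuation ring over `p` is integral over `ℤ_(p)`. -/
theorem isIntegral_of_forall_mem (p : ℕ) [Fact p.Prime] (x : Qb)
    (hx : ∀ A : ValuationSubring Qb, A.LiesOverPrime p → x ∈ A) : IsIntegral (Rl p) x := by
  by_contra hnot
  have hp : p.Prime := Fact.out
  have hxR : x ∉ (integralClosure (Rl p) Qb).toSubring := hnot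
  obtain ⟨V, hV, hxV⟩ := Subring.exists_le_valuationSubring_of_isIntegrallyClosedIn hxR
  have hRl : ∀ r : Rl p, algebraMap (Rl p) Qb r ∈ V := fun r =>
    hV (show algebraMap (Rl p) Qb r ∈ integralClosure (Rl p) Qb from isIntegral_algebraMap)
  by_cases hpV : V.LiesOverPrime p
  · exact hxV (hx V hpV)
  · -- `p` is a unit of `V`, so `ℚ ⊆ V` and `V = ⊤`
    have hpinv : ((p : Qb))⁻¹ ∈ V := by
      have h1 : ¬ V.valuation (p : Qb) < 1 := hpV
      rw [← V.valuation_le_one_iff, map_inv₀]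
      have h2 : V.valuation (p : Qb) = 1 :=
        le_antisymm ((V.valuation_le_one_iff _).2 (natCast_mem V p)) (not_lt.1 h1)
      rw [h2, inv_one]
    have hninv : ∀ n : ℕ, n ≠ 0 → ((n : Qb))⁻¹ ∈ V := by
      intro n hn
      obtain ⟨k, d, hd, rfl⟩ := Nat.exists_eq_pow_mul_and_not_dvd hn p hp.ne_one
      have hdc : d.Coprime p := ((Nat.Prime.coprime_iff_not_dvd hp).2 hd).symm
      have hdQ : ((d : ℚ))⁻¹ ∈ Rl p := by
        show ((d : ℚ)⁻¹).den.Coprime p
        have hd0 : d ≠ 0 := by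
          rintro rfl
          exact hd (dvd_zero p)
        have : ((d : ℚ)⁻¹).den = d := by
          rw [Rat.inv_natCast_den, if_neg hd0]
        rw [this]
        exact hdc
      have h3 : ((d : Qb))⁻¹ ∈ V := by
        have := hRl ⟨_, hdQ⟩
        have h4 : algebraMap (Rl p) Qb ⟨_, hdQ⟩ = algebraMap ℚ Qb ((d : ℚ))⁻¹ := rfl
        rw [h4, map_inv₀, map_natCast] at this
        exact this
      push_cast
      rw [mul_inv, ← inv_pow]
      exact mul_mem (pow_mem hpinv k) h3
    have hQ : ∀ q : ℚ, algebraMap ℚ Qb q ∈ V := by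
      intro q
      have h1 : algebraMap ℚ Qb q = (q.num : Qb) * ((q.den : Qb))⁻¹ := by
        conv_lhs => rw [← Rat.num_div_den q]
        rw [map_div₀, div_eq_mul_inv]
        simp
      rw [h1]
      exact mul_mem (intCast_mem V _) (hninv _ q.den_ne_zero)
    have := BaseRing.isAlgClosure_rat
    exact hxV (BaseRing.mem_of_isIntegral_of_forall_mem V hQ
      (Algebra.IsAlgebraic.isAlgebraic (R := ℚ) x).isIntegral)

/-- A0f : there is a valuation ring of `ℚ̄` over `p`. -/
theorem exists_liesOverPrime (p : ℕ) [Fact p.Prime] :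
    ∃ A : ValuationSubring Qb, A.LiesOverPrime p :=
  Fermat.Agent.Lib.Frobenius.exists_liesOverPrime p Fact.out

/-- A0e : fixed field. -/
theorem exists_rat_of_fixed (x : Qb) (hx : ∀ σ : Gal, σ x = x) : ∃ q : ℚ, algebraMap ℚ Qb q = x := by
  have := BaseRing.isAlgClosure_rat
  exact (InfiniteGalois.mem_range_algebraMap_iff_fixed x).2 hx

end Fermat.Agent.S19
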