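/-
S19 Part A3 : lattices of functions and tensor products.
`mulMap H H' : H ⊗ H' → (X × Y → K)` is injective with full-lattice range.
-/
import Fermat.Agent.S19.Defs

set_option autoImplicit false

namespace Fermat.Agent.S19

open scoped TensorProduct

/-- A3a -/
theorem mulMap_tmul {R K X Y : Type} [CommRing R] [Field K] [Algebra R K]
    (H : Subalgebra R (X → K)) (H' : Subalgebra R (Y → K)) (a : H) (b : H') (q : X × Y) :
    mulMap H H' (a ⊗ₜ b) q = (a : X → K) q.1 * (b : Y → K) q.2 := by
  simp [mulMap, Algebra.TensorProduct.productMap_apply_tmul]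

namespace LatticeAux

/-- Products of two `K`-independent families of functions are `K`-independent. -/
theorem linearIndependent_prod {K X Y ι ι' : Type} [Field K] [Fintype ι] [Fintype ι']
    {f : ι → X → K} {g : ι' → Y → K}
    (hf : LinearIndependent K f) (hg : LinearIndependent K g) :
    LinearIndependent K (fun ij : ι × ι' => fun q : X × Y => f ij.1 q.1 * g ij.2 q.2) := by
  classical
  rw [Fintype.linearIndependent_iff] at hf hg ⊢
  intro a ha
  have key : ∀ (y : Y) (i : ι), ∑ j, a (i, j) * g j y = 0 := by
    intro y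
    apply hf
    funext x
    have := congrFun ha (x, y)
    simp only [Finset.sum_apply, Pi.smul_apply, smul_eq_mul, Pi.zero_apply] at this ⊢
    rw [Fintype.sum_prod_type] at this
    rw [← this]
    refine Finset.sum_congr rfl fun i _ => ?_
    rw [Finset.sum_mul]
    refine Finset.sum_congr rfl fun j _ => ?_
    ring
  rintro ⟨i, j⟩
  refine hg (fun j => a (i, j)) ?_ j
  funext y
  simpa using key y i

/-- Products of two spanning families of functions span. -/
theorem span_prod_eq_top {K X Y ι ι' : Type} [Field K] [Fintype ι] [Fintype ι']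
    {f : ι → X → K} {g : ι' → Y → K}
    (hf : Submodule.span K (Set.range f) = ⊤) (hg : Submodule.span K (Set.range g) = ⊤) :
    Submodule.span K
      (Set.range fun ij : ι × ι' => fun q : X × Y => f ij.1 q.1 * g ij.2 q.2) = ⊤ := by
  classical
  rw [eq_top_iff]
  rintro F -
  -- coordinates in the first variable
  have h1 : ∀ y : Y, ∃ c : ι → K, ∑ i, c i • f i = fun x => F (x, y) := by
    intro y
    have : (fun x => F (x, y)) ∈ Submodule.span K (Set.range f) := by rw [hf]; trivial
    exact (Submodule.mem_span_range_iff_exists_fun K).1 this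
  choose c hc using h1
  have h2 : ∀ i : ι, ∃ d : ι' → K, ∑ j, d j • g j = fun y => c y i := by
    intro i
    have : (fun y => c y i) ∈ Submodule.span K (Set.range g) := by rw [hg]; trivial
    exact (Submodule.mem_span_range_iff_exists_fun K).1 this
  choose d hd using h2
  refine (Submodule.mem_span_range_iff_exists_fun K).2 ⟨fun ij => d ij.1 ij.2, ?_⟩
  funext ⟨x, y⟩
  have e1 := congrFun (hc y) x
  simp only [Finset.sum_apply, Pi.smul_apply, smul_eq_mul] at e1 ⊢
  rw [← e1, Fintype.sum_prod_type]
  refine Finset.sum_congr rfl fun i _ => ?_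
  have e2 := congrFun (hd i) y
  simp only [Finset.sum_apply, Pi.smul_apply, smul_eq_mul] at e2
  rw [← e2, Finset.sum_mul]
  refine Finset.sum_congr rfl fun j _ => ?_
  ring

/-- In a full lattice, a scalar which dies in `K` kills nothing: it is zero as soon as the basis
is nonempty. -/
theorem eq_zero_of_algebraMap_eq_zero {R K X ι : Type} [CommRing R] [Field K] [Algebra R K]
    {H : Subalgebra R (X → K)} (b : Module.Basis ι R H) (i : ι) {c : R}
    (hc : algebraMap R K c = 0) : c = 0 := by
  classical
  have h0 : c • b i = 0 := by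
    apply Subtype.ext
    funext x
    simp [Algebra.smul_def, hc]
  have := congrArg (fun v => b.repr v i) h0
  simpa using this

/-- The value of `mulMap` on the tensor basis. -/
theorem mulMap_basis {R K X Y ι ι' : Type} [CommRing R] [Field K] [Algebra R K]
    {H : Subalgebra R (X → K)} {H' : Subalgebra R (Y → K)}
    (b : Module.Basis ι R H) (b' : Module.Basis ι' R H') (ij : ι × ι') :
    mulMap H H' (b.tensorProduct b' ij) =
      fun q : X × Y => ((b ij.1 : H) : X → K) q.1 * ((b' ij.2 : H') : Y → K) q.2 := by
  funext q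
  rw [Module.Basis.tensorProduct_apply, mulMap_tmul]

end LatticeAux

open LatticeAux in
/-- A3b -/
theorem mulMap_injective {R K X Y : Type} [CommRing R] [Field K] [Algebra R K]
    {H : Subalgebra R (X → K)} {H' : Subalgebra R (Y → K)}
    (hH : IsFullLattice H) (hH' : IsFullLattice H') : Function.Injective (mulMap H H') := by
  classical
  obtain ⟨ι, _, b, hb, -⟩ := hH
  obtain ⟨ι', _, b', hb', -⟩ := hH'
  rw [injective_iff_map_eq_zero]
  intro t ht
  have hind := linearIndependent_prod hb hb'
  rw [Fintype.linearIndependent_iff] at hind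
  set B := b.tensorProduct b' with hB
  have hsum : t = ∑ ij, B.repr t ij • B ij := (B.sum_repr t).symm
  have h0 : ∀ ij, algebraMap R K (B.repr t ij) = 0 := by
    apply hind
    rw [hsum, map_sum] at ht
    rw [← ht]
    refine Finset.sum_congr rfl fun ij _ => ?_
    rw [map_smul, hB, mulMap_basis, ← hB, algebraMap_smul]
  have h1 : ∀ ij, B.repr t ij = 0 := fun ij => eq_zero_of_algebraMap_eq_zero b ij.1 (h0 ij)
  rw [hsum]
  exact Finset.sum_eq_zero fun ij _ => by rw [h1 ij, zero_smul]

open LatticeAux in
/-- A3c -/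
theorem isFullLattice_range_mulMap {R K X Y : Type} [CommRing R] [Field K] [Algebra R K]
    {H : Subalgebra R (X → K)} {H' : Subalgebra R (Y → K)}
    (hH : IsFullLattice H) (hH' : IsFullLattice H') : IsFullLattice (mulMap H H').range := by
  classical
  have hinj := mulMap_injective hH hH'
  obtain ⟨ι, _, b, hb, hbs⟩ := hH
  obtain ⟨ι', _, b', hb', hbs'⟩ := hH'
  let e : (H ⊗[R] H') ≃ₗ[R] (mulMap H H').range :=
    (AlgEquiv.ofInjective (mulMap H H') hinj).toLinearEquiv
  have he : ∀ ij : ι × ι', ((((b.tensorProduct b').map e) ij : (mulMap H H').range) : X × Y → K) =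
      fun q : X × Y => ((b ij.1 : H) : X → K) q.1 * ((b' ij.2 : H') : Y → K) q.2 := by
    intro ij
    rw [← mulMap_basis b b' ij, Module.Basis.map_apply]
    exact AlgEquiv.ofInjective_apply (mulMap H H') hinj _
  have he' : (fun ij : ι × ι' =>
      ((((b.tensorProduct b').map e) ij : (mulMap H H').range) : X × Y → K)) =
      fun ij : ι × ι' => fun q : X × Y =>
        ((b ij.1 : H) : X → K) q.1 * ((b' ij.2 : H') : Y → K) q.2 := funext he
  have h1 := linearIndependent_prod hb hb'
  have h2 := span_prod_eq_top hbs hbs'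
  rw [← he'] at h1 h2
  exact ⟨ι × ι', inferInstance, (b.tensorProduct b').map e, h1, h2⟩

/-- A3d -/
theorem range_mulMap_toSubmodule {R K X Y : Type} [CommRing R] [Field K] [Algebra R K]
    (H : Subalgebra R (X → K)) (H' : Subalgebra R (Y → K)) :
    Subalgebra.toSubmodule (mulMap H H').range = Submodule.span R (prodFun H H') := by
  have h1 : Subalgebra.toSubmodule (mulMap H H').range =
      LinearMap.range (mulMap H H').toLinearMap := by
    ext F
    simp
  rw [h1, LinearMap.range_eq_map, ← TensorProduct.span_tmul_eq_top, Submodule.map_span]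
  congr 1
  ext F
  constructor
  · rintro ⟨t, ⟨a, b, rfl⟩, rfl⟩
    exact ⟨a, a.2, b, b.2, funext fun q => mulMap_tmul H H' a b q⟩
  · rintro ⟨a, ha, b, hb, rfl⟩
    exact ⟨(⟨a, ha⟩ : H) ⊗ₜ (⟨b, hb⟩ : H'), ⟨_, _, rfl⟩,
      funext fun q => mulMap_tmul H H' ⟨a, ha⟩ ⟨b, hb⟩ q⟩

end Fermat.Agent.S19
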