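/-
S19 Part A, block A7: Hopf orders pass to submodules, products and finite powers.
-/
import Fermat.Agent.S19.Defs
import Fermat.Agent.S19.Lattice

set_option autoImplicit false
set_option linter.style.haveILetI false

namespace Fermat.Agent.S19

open scoped TensorProduct

/-- Pull-back of functions as an algebra homomorphism. -/
noncomputable def pullback (R : Type) [CommRing R] [Algebra R Qb] {X Y : Type} (φ : X → Y) :
    (Y → Qb) →ₐ[R] (X → Qb) :=
  AlgHom.pi fun x : X => Pi.evalAlgHom R (fun _ : Y => Qb) (φ x)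

@[simp] theorem pullback_apply (R : Type) [CommRing R] [Algebra R Qb] {X Y : Type} (φ : X → Y)
    (f : Y → Qb) (x : X) : pullback R φ f x = f (φ x) := rfl

/-- A7a : submodules (restrict functions). -/
theorem HasHopfOrder.of_injective {p : ℕ} [Fact p.Prime] {M M' : Type} [AddCommGroup M]
    [AddCommGroup M'] [Finite M] [DistribMulAction Gal M] [DistribMulAction Gal M']
    (φ : M' →+ M) (hφ : Function.Injective φ) (heq : ∀ (σ : Gal) x, φ (σ • x) = σ • φ x)
    (h : HasHopfOrder p M) : HasHopfOrder p M' := by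
  obtain ⟨H, hH⟩ := h
  refine ⟨H.map (pullback (Rl p) φ), ?_, ?_, ?_, ?_⟩
  · rintro _ ⟨h, hh, rfl⟩ σ x
    show h (φ (σ • x)) = σ (h (φ x))
    rw [heq, hH.equivariant h hh]
  · rw [Subalgebra.map_toSubmodule]
    exact hH.fg.map _
  · intro x y hxy
    obtain ⟨h, hh, hne⟩ := hH.separates (φ x) (φ y) (fun e => hxy (hφ e))
    exact ⟨pullback (Rl p) φ h, ⟨h, hh, rfl⟩, hne⟩
  · rintro _ ⟨h, hh, rfl⟩
    let Ψ : (M × M → Qb) →ₗ[Rl p] (M' × M' → Qb) :=
      (pullback (Rl p) (fun q : M' × M' => (φ q.1, φ q.2))).toLinearMap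
    have hle : Submodule.span (Rl p) (prodFun H H) ≤
        (Submodule.span (Rl p) (prodFun (H.map (pullback (Rl p) φ))
          (H.map (pullback (Rl p) φ)))).comap Ψ := by
      rw [Submodule.span_le]
      rintro F ⟨a, ha, b, hb, rfl⟩
      exact Submodule.subset_span ⟨pullback (Rl p) φ a, ⟨a, ha, rfl⟩,
        pullback (Rl p) φ b, ⟨b, hb, rfl⟩, rfl⟩
    have h1 := hle (hH.comul h hh)
    have h2 : (fun q : M' × M' => (pullback (Rl p) φ h) (q.1 + q.2)) =
        Ψ (fun q : M × M => h (q.1 + q.2)) := by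
      funext q
      show h (φ (q.1 + q.2)) = h (φ q.1 + φ q.2)
      rw [map_add]
    exact h2 ▸ h1

/-- The bilinear map `(F, G) ↦ ((x, y), (x', y')) ↦ F (x, x') * G (y, y')`. -/
noncomputable def crossMul (R : Type) [CommRing R] [Algebra R Qb] (M M' : Type) :
    (M × M → Qb) →ₗ[R] (M' × M' → Qb) →ₗ[R] ((M × M') × (M × M') → Qb) :=
  LinearMap.mk₂ R (fun F G q => F (q.1.1, q.2.1) * G (q.1.2, q.2.2))
    (fun F F' G => by funext q; simp [add_mul])
    (fun c F G => by funext q; simp [Algebra.smul_def, mul_assoc])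
    (fun F G G' => by funext q; simp [mul_add])
    (fun c F G => by funext q; simp [Algebra.smul_def, mul_left_comm])

/-- A7c : products. -/
theorem HasHopfOrder.prod {p : ℕ} [Fact p.Prime] {M M' : Type} [AddCommGroup M]
    [AddCommGroup M'] [Finite M] [Finite M'] [DistribMulAction Gal M] [DistribMulAction Gal M']
    (h : HasHopfOrder p M) (h' : HasHopfOrder p M') : HasHopfOrder p (M × M') := by
  obtain ⟨H, hH⟩ := h
  obtain ⟨H', hH'⟩ := h'
  have hmem : ∀ F : M × M' → Qb, F ∈ (mulMap H H').range ↔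
      F ∈ Submodule.span (Rl p) (prodFun H H') := by
    intro F
    rw [← range_mulMap_toSubmodule, Subalgebra.mem_toSubmodule]
  have hprod : ∀ a ∈ H, ∀ b ∈ H', (fun q : M × M' => a q.1 * b q.2) ∈ (mulMap H H').range := by
    intro a ha b hb
    rw [hmem]
    exact Submodule.subset_span ⟨a, ha, b, hb, rfl⟩
  refine ⟨(mulMap H H').range, ?_, ?_, ?_, ?_⟩
  · intro F hF σ x
    rw [hmem] at hF
    induction hF using Submodule.span_induction with
    | mem F hF =>
      obtain ⟨a, ha, b, hb, rfl⟩ := hF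
      show a (σ • x.1) * b (σ • x.2) = σ (a x.1 * b x.2)
      rw [hH.equivariant a ha, hH'.equivariant b hb, map_mul]
    | zero => simp
    | add F G _ _ hF hG => simp [hF, hG]
    | smul c F _ hF =>
      rw [Pi.smul_apply, Pi.smul_apply, hF, Algebra.smul_def, Algebra.smul_def, map_mul]
      congr 1
      exact (σ.commutes (c : ℚ)).symm
  · haveI : Module.Finite (Rl p) H := Module.Finite.of_fg hH.fg
    haveI : Module.Finite (Rl p) H' := Module.Finite.of_fg hH'.fg
    have h1 : Subalgebra.toSubmodule (mulMap H H').range =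
        (⊤ : Submodule (Rl p) (H ⊗[Rl p] H')).map (mulMap H H').toLinearMap := by
      ext F
      simp
    rw [h1]
    exact (Module.Finite.fg_top).map _
  · intro x y hxy
    by_cases h1 : x.1 = y.1
    · have h2 : x.2 ≠ y.2 := fun e => hxy (Prod.ext h1 e)
      obtain ⟨b, hb, hne⟩ := hH'.separates _ _ h2
      refine ⟨_, hprod 1 H.one_mem b hb, ?_⟩
      simpa using hne
    · obtain ⟨a, ha, hne⟩ := hH.separates _ _ h1
      refine ⟨_, hprod a ha 1 H'.one_mem, ?_⟩
      simpa using hne
  · intro F hF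
    rw [hmem] at hF
    let Δ : (M × M' → Qb) →ₗ[Rl p] ((M × M') × (M × M') → Qb) :=
      (pullback (Rl p) (fun q : (M × M') × (M × M') => q.1 + q.2)).toLinearMap
    have hle : Submodule.span (Rl p) (prodFun H H') ≤
        (Submodule.span (Rl p) (prodFun (mulMap H H').range (mulMap H H').range)).comap Δ := by
      rw [Submodule.span_le]
      rintro _ ⟨a, ha, b, hb, rfl⟩
      have h1 : Δ (fun q : M × M' => a q.1 * b q.2) =
          crossMul (Rl p) M M' (fun q : M × M => a (q.1 + q.2))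
            (fun q : M' × M' => b (q.1 + q.2)) := rfl
      rw [SetLike.mem_coe, Submodule.mem_comap, h1]
      have h2 := Submodule.apply_mem_map₂ (crossMul (Rl p) M M') (hH.comul a ha) (hH'.comul b hb)
      rw [Submodule.map₂_span_span] at h2
      refine Submodule.span_mono ?_ h2
      rintro _ ⟨_, ⟨a₁, ha₁, a₂, ha₂, rfl⟩, _, ⟨b₁, hb₁, b₂, hb₂, rfl⟩, rfl⟩
      refine ⟨_, hprod a₁ ha₁ b₁ hb₁, _, hprod a₂ ha₂ b₂ hb₂, ?_⟩
      funext q
      show a₁ q.1.1 * a₂ q.2.1 * (b₁ q.1.2 * b₂ q.2.2) = a₁ q.1.1 * b₁ q.1.2 * (a₂ q.2.1 * b₂ q.2.2)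
      ring
    exact hle hF

/-- The trivial module has a Hopf order. -/
theorem hasHopfOrder_of_subsingleton (p : ℕ) [Fact p.Prime] (M : Type) [AddCommGroup M]
    [Subsingleton M] [DistribMulAction Gal M] : HasHopfOrder p M := by
  refine ⟨⊥, ?_, ?_, ?_, ?_⟩
  · rintro h hh σ x
    obtain ⟨c, rfl⟩ := Algebra.mem_bot.1 hh
    exact (σ.commutes (c : ℚ)).symm
  · exact Subalgebra.fg_bot_toSubmodule
  · intro x y hxy
    exact absurd (Subsingleton.elim x y) hxy
  · rintro h hh
    obtain ⟨c, rfl⟩ := Algebra.mem_bot.1 hh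
    have h1 : (fun q : M × M => algebraMap (Rl p) (M → Qb) c (q.1 + q.2)) =
        c • (fun q : M × M => (1 : M → Qb) q.1 * (1 : M → Qb) q.2) := by
      funext q
      simp [Algebra.smul_def]
    rw [h1]
    exact Submodule.smul_mem _ _ (Submodule.subset_span
      ⟨1, Subalgebra.one_mem _, 1, Subalgebra.one_mem _, rfl⟩)

/-- A7d : finite powers. -/
theorem HasHopfOrder.pi {p : ℕ} [Fact p.Prime] {M : Type} [AddCommGroup M] [Finite M]
    [DistribMulAction Gal M] (h : HasHopfOrder p M) (r : ℕ) : HasHopfOrder p (Fin r → M) := by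
  induction r with
  | zero => exact hasHopfOrder_of_subsingleton p _
  | succ r ih =>
    let φ : (Fin (r + 1) → M) →+ M × (Fin r → M) :=
      { toFun := fun f => (f 0, Fin.tail f)
        map_zero' := rfl
        map_add' := fun _ _ => rfl }
    refine HasHopfOrder.of_injective φ ?_ (fun _ _ => rfl) (h.prod ih)
    intro f g hfg
    have h0 : f 0 = g 0 := congrArg Prod.fst hfg
    have h1 : Fin.tail f = Fin.tail g := congrArg Prod.snd hfg
    rw [← Fin.cons_self_tail f, ← Fin.cons_self_tail g, h0, h1]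

end Fermat.Agent.S19
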