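/-
S19 Part A, node A1 (helper129): Galois descent of linear independence.
Equivariant functions which are independent over `ℚ` (or `ℤ_(p)`) are independent over `ℚ̄`.
-/
import Fermat.Agent.S19.Defs

set_option autoImplicit false

namespace Fermat.Agent.S19

/-- local form of A0e: an element of `ℚ̄` fixed by the Galois group is rational. -/
theorem Descent.exists_rat_of_fixed (x : Qb) (hx : ∀ σ : Gal, σ x = x) :
    ∃ q : ℚ, algebraMap ℚ Qb q = x := by
  have h : (DivisionRing.toRatAlgebra : Algebra ℚ (AlgebraicClosure ℚ)) =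
      AlgebraicClosure.instAlgebra ℚ := Subsingleton.elim _ _
  have h1 : IsAlgClosure ℚ (AlgebraicClosure ℚ) := by
    rw [h]
    infer_instance
  have : IsGalois ℚ Qb := inferInstance
  exact IntermediateField.mem_bot.mp ((InfiniteGalois.mem_bot_iff_fixed x).mpr hx)

/-- A1a : equivariant functions which are linearly independent over `ℚ` are linearly independent
over `ℚ̄` (minimal relation argument). -/
theorem linearIndependent_of_equivariant {W ι : Type} [MulAction Gal W] (s : ι → W → Qb)
    (heq : ∀ i (σ : Gal) (w : W), s i (σ • w) = σ (s i w))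
    (hs : LinearIndependent ℚ s) : LinearIndependent Qb s := by
  classical
  rw [linearIndependent_iff']
  intro t
  induction t using Finset.strongInduction with
  | H t ih =>
    intro c hc i₀ hi₀
    by_contra hne
    -- normalise the relation at `i₀`
    obtain ⟨d, hd⟩ : ∃ d : ι → Qb, ∀ i, d i = (c i₀)⁻¹ * c i := ⟨_, fun _ => rfl⟩
    have hd0 : d i₀ = 1 := by rw [hd, inv_mul_cancel₀ hne]
    have hdrel : ∑ i ∈ t, d i • s i = 0 := by
      have h1 : ∑ i ∈ t, d i • s i = (c i₀)⁻¹ • ∑ i ∈ t, c i • s i := by
        rw [Finset.smul_sum]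
        refine Finset.sum_congr rfl fun i _ => ?_
        rw [smul_smul, hd]
      rw [h1, hc, smul_zero]
    -- the conjugate relations
    have hconj : ∀ σ : Gal, ∑ i ∈ t, σ (d i) • s i = 0 := by
      intro σ
      funext w
      have h1 := congrFun hdrel (σ⁻¹ • w)
      simp only [Finset.sum_apply, Pi.smul_apply, smul_eq_mul, Pi.zero_apply] at h1 ⊢
      have h2 := congrArg σ h1
      rw [map_sum, map_zero] at h2
      rw [← h2]
      refine Finset.sum_congr rfl fun i _ => ?_
      rw [map_mul, ← heq, smul_inv_smul]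
    -- the coefficients are fixed by the Galois group
    have hfix : ∀ σ : Gal, ∀ i ∈ t, σ (d i) = d i := by
      intro σ i hi
      by_cases hii : i = i₀
      · rw [hii, hd0, map_one]
      · have hrel : ∑ j ∈ t.erase i₀, (σ (d j) - d j) • s j = 0 := by
          have h3 : ∑ j ∈ t, (σ (d j) - d j) • s j = 0 := by
            simp only [sub_smul, Finset.sum_sub_distrib, hconj σ, hdrel, sub_zero]
          rw [← Finset.add_sum_erase t _ hi₀, hd0, map_one, sub_self, zero_smul, zero_add] at h3
          exact h3
        have h4 := ih (t.erase i₀) (Finset.erase_ssubset hi₀) _ hrel i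
          (Finset.mem_erase.mpr ⟨hii, hi⟩)
        exact sub_eq_zero.mp h4
    -- descend the coefficients
    have hq : ∀ i, ∃ q : ℚ, i ∈ t → algebraMap ℚ Qb q = d i := by
      intro i
      by_cases hi : i ∈ t
      · obtain ⟨q, hq⟩ := Descent.exists_rat_of_fixed (d i) fun σ => hfix σ i hi
        exact ⟨q, fun _ => hq⟩
      · exact ⟨0, fun h => absurd h hi⟩
    choose q hq using hq
    have hrelQ : ∑ i ∈ t, q i • s i = 0 := by
      rw [← hdrel]
      refine Finset.sum_congr rfl fun i hi => ?_
      rw [← hq i hi, algebraMap_smul]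
    have h5 := linearIndependent_iff'.mp hs t q hrelQ i₀ hi₀
    have h6 := hq i₀ hi₀
    rw [h5, map_zero, hd0] at h6
    exact zero_ne_one h6

/-- `ℚ` is the fraction field of `ℤ_(p)`. -/
theorem Descent.isFractionRing_Rl (p : ℕ) : IsFractionRing (Rl p) ℚ := by
  refine IsFractionRing.of_field (Rl p) ℚ fun z => ?_
  refine ⟨⟨(z.num : ℚ), intCast_mem _ _⟩, ⟨(z.den : ℚ), natCast_mem _ _⟩, ?_⟩
  exact (Rat.num_div_den z).symm

/-- A1b : same, starting from independence over `ℤ_(p)`. -/
theorem linearIndependent_of_equivariant' (p : ℕ) [Fact p.Prime] {W ι : Type} [MulAction Gal W]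
    (s : ι → W → Qb) (heq : ∀ i (σ : Gal) (w : W), s i (σ • w) = σ (s i w))
    (hs : LinearIndependent (Rl p) s) : LinearIndependent Qb s := by
  have := Descent.isFractionRing_Rl p
  exact linearIndependent_of_equivariant s heq ((LinearIndependent.iff_fractionRing (Rl p) ℚ).mp hs)

end Fermat.Agent.S19
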