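/-
S19 Part A, section A2: calculus of `InSpan`.
-/
import Fermat.Agent.S19.Defs

set_option autoImplicit false
set_option linter.unusedSectionVars false

namespace Fermat.Agent.S19

open Polynomial

section InSpan
variable {p : ℕ} [Fact p.Prime] {A : ValuationSubring Qb} {W : Type} [MulAction Gal W]

theorem IsIntEquiv.add {f g : W → Qb} (hf : IsIntEquiv p f) (hg : IsIntEquiv p g) :
    IsIntEquiv p (f + g) :=
  ⟨fun σ w => by simp only [Pi.add_apply, hf.1, hg.1, map_add], fun w => (hf.2 w).add (hg.2 w)⟩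

theorem IsIntEquiv.mul {f g : W → Qb} (hf : IsIntEquiv p f) (hg : IsIntEquiv p g) :
    IsIntEquiv p (f * g) :=
  ⟨fun σ w => by simp only [Pi.mul_apply, hf.1, hg.1, map_mul], fun w => (hf.2 w).mul (hg.2 w)⟩

theorem IsIntEquiv.const (c : Rl p) : IsIntEquiv p (fun _ : W => algebraMap ℚ Qb (c : ℚ)) :=
  ⟨fun σ _ => (σ.commutes _).symm, fun _ => (isIntegral_algebraMap (R := Rl p) (A := Qb) (x := c))⟩

/-- `InSpan` is membership in the `A`-span of the equivariant integral functions. -/
theorem inSpan_iff_mem_span {f : W → Qb} :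
    InSpan p A f ↔ f ∈ Submodule.span A {s : W → Qb | IsIntEquiv p s} := by
  rw [Submodule.mem_span_set']
  constructor
  · rintro ⟨n, a, s, ha, hs, rfl⟩
    refine ⟨n, fun i => ⟨a i, ha i⟩, fun i => ⟨s i, hs i⟩, ?_⟩
    funext w
    simp only [Finset.sum_apply, Pi.smul_apply]
    rfl
  · rintro ⟨n, a, s, rfl⟩
    refine ⟨n, fun i => (a i : Qb), fun i => (s i : W → Qb), fun i => (a i).2, fun i => (s i).2, ?_⟩
    funext w
    simp only [Finset.sum_apply, Pi.smul_apply]
    rfl

theorem InSpan.of_intEquiv {f : W → Qb} (hf : IsIntEquiv p f) : InSpan p A f :=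
  inSpan_iff_mem_span.mpr (Submodule.subset_span hf)

theorem InSpan.const {c : Qb} (hc : c ∈ A) : InSpan p A (fun _ : W => c) := by
  refine ⟨1, fun _ => c, fun _ _ => algebraMap ℚ Qb ((1 : Rl p) : ℚ), fun _ => hc,
    fun _ => IsIntEquiv.const 1, ?_⟩
  funext w
  simp

theorem InSpan.add {f g : W → Qb} (hf : InSpan p A f) (hg : InSpan p A g) : InSpan p A (f + g) :=
  inSpan_iff_mem_span.mpr
    (Submodule.add_mem _ (inSpan_iff_mem_span.mp hf) (inSpan_iff_mem_span.mp hg))

theorem InSpan.mul {f g : W → Qb} (hf : InSpan p A f) (hg : InSpan p A g) :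
    InSpan p A (f * g) := by
  rw [inSpan_iff_mem_span] at hf hg ⊢
  have h := Submodule.mul_mem_mul hf hg
  rw [Submodule.span_mul_span] at h
  refine Submodule.span_mono ?_ h
  rintro _ ⟨a, ha, b, hb, rfl⟩
  exact IsIntEquiv.mul ha hb

theorem InSpan.prod {ι : Type} (t : Finset ι) (f : ι → W → Qb) (hf : ∀ i ∈ t, InSpan p A (f i)) :
    InSpan p A (∏ i ∈ t, f i) :=
  Finset.prod_induction f (InSpan p A) (fun _ _ => InSpan.mul) (InSpan.const A.one_mem) hf

theorem InSpan.pow {f : W → Qb} (hf : InSpan p A f) (n : ℕ) : InSpan p A (f ^ n) := by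
  induction n with
  | zero => rw [pow_zero]; exact InSpan.const A.one_mem
  | succ n ih => rw [pow_succ]; exact ih.mul hf

/-- `ℤ_(p)` is contained in every valuation ring over `p`. -/
theorem InSpan.algebraMap_mem (hA : A.LiesOverPrime p) (c : Rl p) :
    algebraMap ℚ Qb (c : ℚ) ∈ A := by
  have hp : A.valuation (p : Qb) < 1 := A.mem_nonunits_iff.mp hA
  have hcop : (c : ℚ).den.Coprime p := c.2
  obtain ⟨u, t, hut⟩ := Nat.isCoprime_iff_coprime.mpr hcop
  have hut' : (u : Qb) * ((c : ℚ).den : Qb) + (t : Qb) * (p : Qb) = 1 := by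
    have := congrArg (Int.cast : ℤ → Qb) hut
    push_cast at this
    exact this
  have hint : ∀ n : ℤ, A.valuation (n : Qb) ≤ 1 := fun n =>
    (A.valuation_le_one_iff _).mpr (intCast_mem A n)
  have hd1 : A.valuation ((c : ℚ).den : Qb) ≤ 1 := by
    have := hint ((c : ℚ).den : ℤ)
    rwa [Int.cast_natCast] at this
  have hd : A.valuation ((c : ℚ).den : Qb) = 1 := by
    refine le_antisymm hd1 (not_lt.mp fun hlt => ?_)
    have h1 : A.valuation ((u : Qb) * ((c : ℚ).den : Qb)) < 1 := by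
      rw [map_mul]
      exact mul_lt_of_le_one_of_lt (hint u) hlt
    have h2 : A.valuation ((t : Qb) * (p : Qb)) < 1 := by
      rw [map_mul]
      exact mul_lt_of_le_one_of_lt (hint t) hp
    have h3 := A.valuation.map_add_lt h1 h2
    rw [hut', map_one] at h3
    exact lt_irrefl _ h3
  rw [← A.valuation_le_one_iff]
  have hc : algebraMap ℚ Qb (c : ℚ) = ((c : ℚ).num : Qb) / ((c : ℚ).den : Qb) := by
    conv_lhs => rw [← Rat.num_div_den (c : ℚ)]
    simp
  rw [hc, map_div₀, hd, div_one]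
  exact hint _

/-- elements integral over `ℤ_(p)` lie in every valuation ring over `p`. -/
theorem InSpan.mem_of_isIntegral' (hA : A.LiesOverPrime p) {x : Qb} (hx : IsIntegral (Rl p) x) :
    x ∈ A := by
  let φ : Rl p →+* A :=
    ((algebraMap ℚ Qb).comp (Rl p).subtype).codRestrict A.toSubring
      (fun c => InSpan.algebraMap_mem hA c)
  have h1 : IsIntegral A x :=
    IsIntegral.map_of_comp_eq φ (RingHom.id Qb) (by ext c; rfl) hx
  obtain ⟨y, rfl⟩ := (IsIntegrallyClosed.isIntegral_iff (R := A) (K := Qb)).mp h1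
  exact y.2

/-- values lie in `A` -/
theorem InSpan.mem (hA : A.LiesOverPrime p) {f : W → Qb} (hf : InSpan p A f) (w : W) :
    f w ∈ A := by
  obtain ⟨n, a, s, ha, hs, rfl⟩ := hf
  exact A.toSubring.sum_mem fun i _ => A.mul_mem _ _ (ha i) (InSpan.mem_of_isIntegral' hA ((hs i).2 w))

/-- polynomials with coefficients in `A` preserve `InSpan` -/
theorem InSpan.eval₂ {f : W → Qb} (hf : InSpan p A f) (P : A[X]) :
    InSpan p A (fun w => P.eval₂ A.subtype (f w)) := by
  induction P using Polynomial.induction_on' with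
  | add P Q hP hQ =>
    have : (fun w => (P + Q).eval₂ A.subtype (f w))
        = (fun w => P.eval₂ A.subtype (f w)) + fun w => Q.eval₂ A.subtype (f w) := by
      funext w
      simp [Polynomial.eval₂_add]
    rw [this]
    exact hP.add hQ
  | monomial n a =>
    have : (fun w => (Polynomial.monomial n a).eval₂ A.subtype (f w))
        = (fun _ : W => (a : Qb)) * f ^ n := by
      funext w
      simp [Polynomial.eval₂_monomial]
    rw [this]
    exact (InSpan.const a.2).mul (hf.pow n)

/-- a unit-valued element is invertible in the span: `η⁻¹ ∈ A[η]` by `∏ w, (T - η w)`. -/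
theorem InSpan.inv [Finite W] (hA : A.LiesOverPrime p) {f : W → Qb} (hf : InSpan p A f)
    (hu : ∀ w, (f w)⁻¹ ∈ A) (h0 : ∀ w, f w ≠ 0) : InSpan p A (fun w => (f w)⁻¹) := by
  cases nonempty_fintype W
  let χ : A[X] := ∏ w : W, (X - C (⟨f w, hf.mem hA w⟩ : A))
  have hχ : ∀ w₀, χ.eval₂ A.subtype (f w₀) = 0 := by
    intro w₀
    simp only [χ, Polynomial.eval₂_finsetProd]
    refine Finset.prod_eq_zero (Finset.mem_univ w₀) ?_
    simp
  have hc0 : A.subtype (χ.coeff 0) = ∏ w : W, (-(f w)) := by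
    rw [Polynomial.coeff_zero_eq_eval_zero]
    simp only [χ, Polynomial.eval_prod, map_prod]
    refine Finset.prod_congr rfl fun w _ => ?_
    simp
  have hd : (∏ w : W, (-(f w)⁻¹)) ∈ A :=
    A.toSubring.prod_mem fun w _ => A.neg_mem _ (hu w)
  have hcd : (∏ w : W, (-(f w))) * (∏ w : W, (-(f w)⁻¹)) = 1 := by
    rw [← Finset.prod_mul_distrib]
    refine Finset.prod_eq_one fun w _ => ?_
    rw [neg_mul_neg, mul_inv_cancel₀ (h0 w)]
  have key : (fun w => (f w)⁻¹)
      = (fun _ : W => -(∏ w : W, (-(f w)⁻¹))) * fun w => (χ.divX).eval₂ A.subtype (f w) := by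
    funext w₀
    have h1 := hχ w₀
    rw [← Polynomial.divX_mul_X_add χ, Polynomial.eval₂_add, Polynomial.eval₂_mul,
      Polynomial.eval₂_X, Polynomial.eval₂_C, hc0] at h1
    simp only [Pi.mul_apply]
    have h2 : (χ.divX).eval₂ A.subtype (f w₀) = -(∏ w : W, (-(f w))) * (f w₀)⁻¹ := by
      field_simp [h0 w₀]
      linear_combination h1
    rw [h2]
    linear_combination (-(f w₀)⁻¹) * hcd
  rw [key]
  exact (InSpan.const (A.neg_mem _ hd)).mul (hf.eval₂ _)

theorem InSpan.zpow [Finite W] (hA : A.LiesOverPrime p) {f : W → Qb} (hf : InSpan p A f)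
    (hu : ∀ w, (f w)⁻¹ ∈ A) (h0 : ∀ w, f w ≠ 0) (n : ℤ) : InSpan p A (fun w => (f w) ^ n) := by
  cases n with
  | ofNat m =>
    have : (fun w => (f w) ^ (Int.ofNat m)) = f ^ m := by
      funext w
      simp
    rw [this]
    exact hf.pow m
  | negSucc m =>
    have : (fun w => (f w) ^ (Int.negSucc m)) = (fun w => (f w)⁻¹) ^ (m + 1) := by
      funext w
      simp [zpow_negSucc]
    rw [this]
    exact (hf.inv hA hu h0).pow _

end InSpan

end Fermat.Agent.S19
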