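/-
S19 Part A, node A1c (helper171): the module of equivariant integral functions on a finite
`Gal`-set is free of finite rank over `ℤ_(p)`.
-/
import Fermat.Agent.S19.Descent
import Fermat.Agent.S19.BaseRing

set_option autoImplicit false
set_option linter.unusedSectionVars false

namespace Fermat.Agent.S19

namespace IntEquivFG

variable {p : ℕ} {W : Type} [MulAction Gal W]

/-- equivariant functions, as a `ℚ`-subspace -/
def equivSub (W : Type) [MulAction Gal W] : Submodule ℚ (W → Qb) where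
  carrier := {f | ∀ (σ : Gal) (w : W), f (σ • w) = σ (f w)}
  add_mem' := by
    intro a b ha hb σ w
    rw [Pi.add_apply, Pi.add_apply, ha σ w, hb σ w, map_add]
  zero_mem' := by
    intro σ w
    rw [Pi.zero_apply, Pi.zero_apply, map_zero]
  smul_mem' := by
    intro c f hf σ w
    rw [Pi.smul_apply, Pi.smul_apply, hf σ w]
    exact (map_rat_smul σ c (f w)).symm

theorem isAlgebraic_Qb (x : Qb) : IsAlgebraic ℚ x := by
  have h : (DivisionRing.toRatAlgebra : Algebra ℚ (AlgebraicClosure ℚ)) =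
      AlgebraicClosure.instAlgebra ℚ := Subsingleton.elim _ _
  have h1 : Algebra.IsAlgebraic ℚ (AlgebraicClosure ℚ) := by
    rw [h]
    infer_instance
  exact h1.isAlgebraic x

theorem mem_equivSub {f : W → Qb} :
    f ∈ equivSub W ↔ ∀ (σ : Gal) (w : W), f (σ • w) = σ (f w) := Iff.rfl

theorem mul_mem_equivSub {f g : W → Qb} (hf : f ∈ equivSub W) (hg : g ∈ equivSub W) :
    f * g ∈ equivSub W := by
  intro σ w
  rw [Pi.mul_apply, Pi.mul_apply, hf σ w, hg σ w, map_mul]

theorem inv_mem_equivSub {f : W → Qb} (hf : f ∈ equivSub W) :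
    (fun w => (f w)⁻¹) ∈ equivSub W := by
  intro σ w
  show (f (σ • w))⁻¹ = σ (f w)⁻¹
  rw [hf σ w, map_inv₀]

/-- equivariant integral functions, as a `ℤ_(p)`-submodule -/
def intSub (p : ℕ) (W : Type) [MulAction Gal W] : Submodule (Rl p) (W → Qb) where
  carrier := {f | IsIntEquiv p f}
  add_mem' := by
    intro a b ha hb
    exact ⟨(equivSub W).add_mem ha.1 hb.1, fun w => (ha.2 w).add (hb.2 w)⟩
  zero_mem' := ⟨(equivSub W).zero_mem, fun _ => isIntegral_zero⟩
  smul_mem' := by
    intro c f hf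
    exact ⟨(equivSub W).smul_mem (c : ℚ) hf.1, fun w => IsIntegral.smul c (hf.2 w)⟩

theorem mem_intSub {f : W → Qb} : f ∈ intSub p W ↔ IsIntEquiv p f := Iff.rfl

theorem isIntEquiv_mul {f g : W → Qb} (hf : IsIntEquiv p f) (hg : IsIntEquiv p g) :
    IsIntEquiv p (f * g) :=
  ⟨mul_mem_equivSub hf.1 hg.1, fun w => (hf.2 w).mul (hg.2 w)⟩

theorem sum_fixed [Fintype W] {f : W → Qb} (hf : f ∈ equivSub W) (σ : Gal) :
    σ (∑ w, f w) = ∑ w, f w := by
  rw [map_sum]
  have h : ∀ w, σ (f w) = f (σ • w) := fun w => (hf σ w).symm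
  simp_rw [h]
  exact Fintype.sum_equiv (MulAction.toPerm σ) _ _ (fun w => rfl)

theorem isIntegral_intCast (k : ℤ) : IsIntegral (Rl p) (k : Qb) := by
  rw [← map_intCast (algebraMap (Rl p) Qb)]
  exact isIntegral_algebraMap

/-- clearing denominators of finitely many algebraic numbers -/
theorem exists_int_mul_isIntegral (f : W → Qb) (t : Finset W) :
    ∃ m : ℤ, m ≠ 0 ∧ ∀ w ∈ t, IsIntegral (Rl p) ((m : Qb) * f w) := by
  classical
  induction t using Finset.induction_on with
  | empty => exact ⟨1, one_ne_zero, fun w hw => absurd hw (Finset.notMem_empty w)⟩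
  | insert a t _ ih =>
    obtain ⟨m, hm, h⟩ := ih
    have halg : IsAlgebraic ℤ (f a) :=
      (IsFractionRing.isAlgebraic_iff ℤ ℚ Qb).mpr (isAlgebraic_Qb (f a))
    obtain ⟨y, hy, hyi⟩ := halg.exists_integral_multiple
    have hyi' : IsIntegral (Rl p) ((y : Qb) * f a) := by
      rw [zsmul_eq_mul] at hyi
      exact hyi.tower_top
    refine ⟨y * m, mul_ne_zero hy hm, fun w hw => ?_⟩
    rcases Finset.mem_insert.mp hw with rfl | hw
    · have : ((y * m : ℤ) : Qb) * f w = (m : Qb) * ((y : Qb) * f w) := by push_cast; ring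
      rw [this]
      exact (isIntegral_intCast m).mul hyi'
    · have : ((y * m : ℤ) : Qb) * f w = (y : Qb) * ((m : Qb) * f w) := by push_cast; ring
      rw [this]
      exact (isIntegral_intCast y).mul (h w hw)

theorem exists_smul_isIntEquiv [Fintype W] {f : W → Qb} (hf : f ∈ equivSub W) :
    ∃ m : ℚ, m ≠ 0 ∧ IsIntEquiv p (m • f) := by
  obtain ⟨m, hm, h⟩ := exists_int_mul_isIntegral (p := p) f Finset.univ
  refine ⟨m, Int.cast_ne_zero.mpr hm, (equivSub W).smul_mem _ hf, fun w => ?_⟩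
  have : ((m : ℚ) • f) w = (m : Qb) * f w := by
    rw [Pi.smul_apply, Algebra.smul_def, map_intCast]
  rw [this]
  exact h w (Finset.mem_univ w)

theorem finiteDimensional_equivSub [Fintype W] : FiniteDimensional ℚ (equivSub W) := by
  rw [FiniteDimensional, ← Module.rank_lt_aleph0_iff]
  refine lt_of_le_of_lt (rank_le (n := Fintype.card W) fun s hs => ?_) (Cardinal.natCast_lt_aleph0)
  have h1 : LinearIndependent ℚ (fun i : s => (((i : equivSub W)) : W → Qb)) :=
    hs.map' (equivSub W).subtype (Submodule.ker_subtype _)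
  have h2 := linearIndependent_of_equivariant (fun i : s => (((i : equivSub W)) : W → Qb))
    (fun i σ w => (i : equivSub W).2 σ w) h1
  have h3 := h2.fintype_card_le_finrank
  rwa [Module.finrank_fintype_fun_eq_card, Fintype.card_coe] at h3

/-- a `ℚ`-linear retraction of `ℚ → ℚ̄` -/
theorem exists_retraction : ∃ π : Qb →ₗ[ℚ] ℚ, ∀ q : ℚ, π (algebraMap ℚ Qb q) = q := by
  obtain ⟨g, hg⟩ := (Algebra.linearMap ℚ Qb).exists_leftInverse_of_injective
    (LinearMap.ker_eq_bot.mpr (algebraMap ℚ Qb).injective)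
  exact ⟨g, fun q => LinearMap.congr_fun hg q⟩

/-- the trace `f ↦ ∑ w, f w`, made rational by a retraction `π` -/
noncomputable def trQ [Fintype W] (π : Qb →ₗ[ℚ] ℚ) : (W → Qb) →ₗ[ℚ] ℚ :=
  π ∘ₗ (∑ w : W, LinearMap.proj w)

theorem trQ_apply [Fintype W] (π : Qb →ₗ[ℚ] ℚ) (f : W → Qb) : trQ π f = π (∑ w, f w) := by
  simp [trQ]

theorem algebraMap_trQ [Fintype W] {π : Qb →ₗ[ℚ] ℚ} (hπ : ∀ q : ℚ, π (algebraMap ℚ Qb q) = q)
    {f : W → Qb} (hf : f ∈ equivSub W) : algebraMap ℚ Qb (trQ π f) = ∑ w, f w := by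
  obtain ⟨q, hq⟩ := Descent.exists_rat_of_fixed (∑ w, f w) (sum_fixed hf)
  rw [trQ_apply, ← hq, hπ]

theorem trQ_mem [Fintype W] (hmem : ∀ x : ℚ, IsIntegral (Rl p) (algebraMap ℚ Qb x) → x ∈ Rl p)
    {π : Qb →ₗ[ℚ] ℚ} (hπ : ∀ q : ℚ, π (algebraMap ℚ Qb q) = q)
    {f : W → Qb} (hf : IsIntEquiv p f) : trQ π f ∈ Rl p := by
  apply hmem
  rw [algebraMap_trQ hπ hf.1]
  exact IsIntegral.sum _ fun w _ => hf.2 w

/-- nondegeneracy of the trace form on equivariant functions -/
theorem eq_zero_of_trQ_mul_eq_zero [Fintype W] {π : Qb →ₗ[ℚ] ℚ}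
    (hπ : ∀ q : ℚ, π (algebraMap ℚ Qb q) = q) {f : W → Qb} (hf : f ∈ equivSub W)
    (h : ∀ g ∈ equivSub W, trQ π (f * g) = 0) : f = 0 := by
  classical
  have h1 := h _ (inv_mem_equivSub hf)
  have h2 := algebraMap_trQ hπ (mul_mem_equivSub hf (inv_mem_equivSub hf))
  rw [h1, map_zero] at h2
  have h3 : ∀ w, (f * fun w => (f w)⁻¹) w = if f w = 0 then 0 else 1 := by
    intro w
    show f w * (f w)⁻¹ = _
    split_ifs with h0
    · rw [h0, zero_mul]
    · exact mul_inv_cancel₀ h0
  simp_rw [h3] at h2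
  rw [Finset.sum_ite, Finset.sum_const_zero, zero_add, Finset.sum_const, nsmul_eq_mul, mul_one,
    eq_comm, Nat.cast_eq_zero, Finset.card_eq_zero] at h2
  funext w
  by_contra hw
  have : w ∈ Finset.filter (fun w => ¬ f w = 0) Finset.univ :=
    Finset.mem_filter.mpr ⟨Finset.mem_univ w, hw⟩
  rw [h2] at this
  exact absurd this (Finset.notMem_empty w)

/-- core statement, with the facts on the base ring as hypotheses -/
theorem core (p : ℕ) [Fintype W] (hPID : IsPrincipalIdealRing (Rl p))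
    (hmem : ∀ x : ℚ, IsIntegral (Rl p) (algebraMap ℚ Qb x) → x ∈ Rl p) :
    ∃ r : ℕ, Nonempty (Module.Basis (Fin r) (Rl p) (intSub p W)) := by
  obtain ⟨π, hπ⟩ := exists_retraction
  have := finiteDimensional_equivSub (W := W)
  set n := Module.finrank ℚ (equivSub W) with hn
  let b : Module.Basis (Fin n) ℚ (equivSub W) := Module.finBasis ℚ (equivSub W)
  choose m hm0 hm using fun i => exists_smul_isIntEquiv (p := p) (b i).2
  -- the map to `R ^ n`
  let Φ : intSub p W →ₗ[Rl p] (Fin n → Rl p) :=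
    { toFun := fun f i => ⟨trQ π ((f : W → Qb) * (m i • ((b i : equivSub W) : W → Qb))),
        trQ_mem hmem hπ (isIntEquiv_mul f.2 (hm i))⟩
      map_add' := by
        intro f g
        funext i
        apply Subtype.ext
        show trQ π (((f : W → Qb) + (g : W → Qb)) * _) = trQ π _ + trQ π _
        rw [add_mul, map_add]
      map_smul' := by
        intro c f
        funext i
        apply Subtype.ext
        show trQ π (((c : ℚ) • (f : W → Qb)) * _) = (c : ℚ) * trQ π _
        rw [smul_mul_assoc, map_smul, smul_eq_mul] }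
  have hΦ : Function.Injective Φ := by
    rw [injective_iff_map_eq_zero]
    intro f hf
    apply Subtype.ext
    apply eq_zero_of_trQ_mul_eq_zero hπ f.2.1
    -- the linear form `g ↦ tr (f g)` vanishes on a basis
    let lam : equivSub W →ₗ[ℚ] ℚ :=
      (trQ π ∘ₗ LinearMap.mulLeft ℚ (f : W → Qb)) ∘ₗ (equivSub W).subtype
    have hlam : lam = 0 := by
      apply b.ext
      intro i
      have h1 : trQ π ((f : W → Qb) * (m i • ((b i : equivSub W) : W → Qb))) = 0 :=
        congrArg Subtype.val (congrFun hf i)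
      rw [mul_smul_comm, map_smul, smul_eq_mul] at h1
      exact (mul_eq_zero.mp h1).resolve_left (hm0 i)
    intro g hg
    exact LinearMap.congr_fun hlam ⟨g, hg⟩
  obtain ⟨r, ⟨bas⟩⟩ := Submodule.nonempty_basis_of_pid (Pi.basisFun (Rl p) (Fin n))
    (LinearMap.range Φ)
  exact ⟨r, ⟨bas.map (LinearEquiv.ofInjective Φ hΦ).symm⟩⟩

/-- A1c with the facts on the base ring as hypotheses -/
theorem fg_intEquiv_of (p : ℕ) [Finite W] (hPID : IsPrincipalIdealRing (Rl p))
    (hmem : ∀ x : ℚ, IsIntegral (Rl p) (algebraMap ℚ Qb x) → x ∈ Rl p) :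
    ∃ (r : ℕ) (s : Fin r → W → Qb), (∀ i, IsIntEquiv p (s i)) ∧ LinearIndependent (Rl p) s ∧
      ∀ f : W → Qb, IsIntEquiv p f →
        ∃ c : Fin r → Rl p, f = fun w => ∑ i, (c i : ℚ) • s i w := by
  have := Fintype.ofFinite W
  obtain ⟨r, ⟨bas⟩⟩ := core (W := W) p hPID hmem
  refine ⟨r, fun i => (bas i : W → Qb), fun i => (bas i).2, ?_, fun f hf => ?_⟩
  · exact bas.linearIndependent.map' (intSub p W).subtype (Submodule.ker_subtype _)
  · have hf' : f ∈ intSub p W := hf
    refine ⟨fun i => bas.repr ⟨f, hf'⟩ i, ?_⟩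
    have h1 := bas.sum_repr ⟨f, hf'⟩
    have h2 : ((∑ i, bas.repr ⟨f, hf'⟩ i • bas i : intSub p W) : W → Qb) = f :=
      congrArg (Subtype.val) h1
    funext w
    have h3 := congrFun h2 w
    rw [Submodule.coe_sum, Finset.sum_apply] at h3
    exact h3.symm

end IntEquivFG

/-- A1c : the module of all equivariant integral functions on a finite `G`-set is finitely
generated over `ℤ_(p)` (trace form `(f, g) ↦ ∑ w, f w * g w ∈ ℚ`, dual lattice). -/
theorem fg_intEquiv (p : ℕ) [Fact p.Prime] {W : Type} [Finite W] [MulAction Gal W] :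
    ∃ (r : ℕ) (s : Fin r → W → Qb), (∀ i, IsIntEquiv p (s i)) ∧ LinearIndependent (Rl p) s ∧
      ∀ f : W → Qb, IsIntEquiv p f → ∃ c : Fin r → Rl p, f = fun w => ∑ i, (c i : ℚ) • s i w :=
  IntEquivFG.fg_intEquiv_of p (Rl_isPrincipalIdealRing p) (mem_Rl_of_isIntegral p)

end Fermat.Agent.S19
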