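/-
S19 Part A, block A6: THEOREM A (a pairing with integrality produces a Hopf order).
-/
import Fermat.Agent.S19.Defs
import Fermat.Agent.S19.BaseRing
import Fermat.Agent.S19.Descent
import Fermat.Agent.S19.IntEquivFG
import Fermat.Agent.S19.InSpan
import Fermat.Agent.S19.Lattice
import Fermat.Agent.S19.Closure

set_option autoImplicit false
set_option linter.style.haveILetI false

namespace Fermat.Agent.S19

open Polynomial in
/-- A function on a finite set with integral values is integral. -/
theorem isIntegral_pi_of_forall {R K X : Type*} [CommRing R] [CommRing K] [Algebra R K] [Finite X]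
    (f : X → K) (hf : ∀ x, IsIntegral R (f x)) : IsIntegral R f := by
  classical
  haveI := Fintype.ofFinite X
  choose P hPm hP using hf
  refine ⟨∏ x, P x, monic_prod_of_monic _ _ (fun x _ => hPm x), ?_⟩
  funext y
  have h1 : (eval₂ (algebraMap R (X → K)) f (∏ x, P x)) y =
      eval₂ (algebraMap R K) (f y) (∏ x, P x) :=
    Polynomial.hom_eval₂ (∏ x, P x) (algebraMap R (X → K)) (Pi.evalRingHom (fun _ => K) y) f
  rw [h1, eval₂_finsetProd]
  exact Finset.prod_eq_zero (Finset.mem_univ y) (hP y)

/-- Uniqueness of the coefficients with respect to a linearly independent family of functions. -/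
theorem coeff_unique {W : Type} {r : ℕ} {s : Fin r → W → Qb} (hs : LinearIndependent Qb s)
    (x x' : Fin r → Qb) (h : ∀ w, ∑ i, x i * s i w = ∑ i, x' i * s i w) : x = x' := by
  have h1 := Fintype.linearIndependent_iff.1 hs (fun i => x i - x' i) (by
    funext w
    simp only [Finset.sum_apply, Pi.smul_apply, smul_eq_mul, Pi.zero_apply, sub_mul,
      Finset.sum_sub_distrib]
    rw [h w, sub_self])
  funext i
  exact sub_eq_zero.1 (h1 i)

/-- An element of the `A`-span of the equivariant integral functions has coordinates in `A` with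
respect to a basis of the equivariant integral functions. -/
theorem InSpan.exists_coeff {p : ℕ} [Fact p.Prime] {A : ValuationSubring Qb}
    (hA : A.LiesOverPrime p) {W : Type} [MulAction Gal W] {r : ℕ} {s : Fin r → W → Qb}
    (hspan : ∀ f : W → Qb, IsIntEquiv p f →
      ∃ c : Fin r → Rl p, f = fun w => ∑ i, (c i : ℚ) • s i w)
    {f : W → Qb} (hf : InSpan p A f) :
    ∃ x : Fin r → Qb, (∀ i, x i ∈ A) ∧ ∀ w, f w = ∑ i, x i * s i w := by
  obtain ⟨n, a, t, ha, ht, rfl⟩ := hf
  choose c hc using fun j => hspan (t j) (ht j)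
  refine ⟨fun i => ∑ j, a j * algebraMap ℚ Qb (c j i : ℚ), ?_, ?_⟩
  · intro i
    refine A.sum_mem fun j _ => A.mul_mem _ _ (ha j) ?_
    exact mem_of_isIntegral p _ (isIntegral_algebraMap (R := Rl p) (x := c j i)) A hA
  · intro w
    simp only [Finset.sum_mul]
    rw [Finset.sum_comm]
    refine Finset.sum_congr rfl fun j _ => ?_
    rw [hc j, Finset.mul_sum]
    refine Finset.sum_congr rfl fun i _ => ?_
    rw [Algebra.smul_def, mul_assoc]

/-- A6 : THEOREM A.  An injective, multiplicative, equivariant family of functions on a finite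
`G`-set `W`, lying in the `A`-span of the equivariant integral functions for every `A` over `p`,
produces a Hopf order.  (`s_i` := the basis of A1c, `ι v = ∑ x_i(v) s_i`, `H := ℤ_(p)[x_i]`.) -/
theorem hasHopfOrder_of_pairing (p : ℕ) [Fact p.Prime] {V W : Type} [AddCommGroup V] [Finite V]
    [DistribMulAction Gal V] [Finite W] [MulAction Gal W] (ι : V → W → Qb)
    (hmul : ∀ v v' w, ι (v + v') w = ι v w * ι v' w)
    (heq : ∀ (σ : Gal) v w, ι (σ • v) (σ • w) = σ (ι v w))
    (hinj : Function.Injective ι)
    (hint : ∀ A : ValuationSubring Qb, A.LiesOverPrime p → ∀ v, InSpan p A (ι v)) :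
    HasHopfOrder p V := by
  classical
  obtain ⟨r, s, hsint, hsind, hspan⟩ := fg_intEquiv p (W := W)
  have hind : LinearIndependent Qb s :=
    linearIndependent_of_equivariant' p s (fun i => (hsint i).1) hsind
  obtain ⟨A₀, hA₀⟩ := exists_liesOverPrime p
  choose x _hxA hx using fun v => (hint A₀ hA₀ v).exists_coeff hA₀ hspan
  -- integrality
  have hxint : ∀ v i, IsIntegral (Rl p) (x v i) := by
    intro v i
    refine isIntegral_of_forall_mem p _ fun A hA => ?_
    obtain ⟨x', hx'A, hx'⟩ := (hint A hA v).exists_coeff hA hspan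
    have : x v = x' := coeff_unique hind _ _ fun w => by rw [← hx v w, ← hx' w]
    rw [this]
    exact hx'A i
  -- equivariance
  have hxeq : ∀ (σ : Gal) v i, x (σ • v) i = σ (x v i) := by
    intro σ v i
    have : x (σ • v) = fun i => σ (x v i) := by
      refine coeff_unique hind _ _ fun w => ?_
      rw [← hx (σ • v) w]
      obtain ⟨w', rfl⟩ : ∃ w', w = σ • w' := ⟨σ⁻¹ • w, (smul_inv_smul σ w).symm⟩
      rw [heq, hx v, map_sum]
      refine Finset.sum_congr rfl fun i _ => ?_
      rw [map_mul, (hsint i).1]
    rw [this]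
  -- structure constants
  choose c hc using fun j k => hspan (s j * s k) ((hsint j).mul (hsint k))
  have hxadd : ∀ v v' i, x (v + v') i =
      ∑ j, ∑ k, algebraMap ℚ Qb (c j k i : ℚ) * (x v j * x v' k) := by
    intro v v' i
    have : x (v + v') = fun i => ∑ j, ∑ k, algebraMap ℚ Qb (c j k i : ℚ) * (x v j * x v' k) := by
      refine coeff_unique hind _ _ fun w => ?_
      rw [← hx (v + v') w, hmul, hx v, hx v', Finset.sum_mul_sum]
      simp only [Finset.sum_mul]
      conv_rhs => rw [Finset.sum_comm]
      refine Finset.sum_congr rfl fun j _ => ?_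
      conv_rhs => rw [Finset.sum_comm]
      refine Finset.sum_congr rfl fun k _ => ?_
      have h1 : s j w * s k w = ∑ i, (c j k i : ℚ) • s i w := congrFun (hc j k) w
      calc x v j * s j w * (x v' k * s k w) = (x v j * x v' k) * (s j w * s k w) := by ring
        _ = ∑ i, algebraMap ℚ Qb (c j k i : ℚ) * (x v j * x v' k) * s i w := by
          rw [h1, Finset.mul_sum]
          refine Finset.sum_congr rfl fun i _ => ?_
          rw [Algebra.smul_def]
          ring
    rw [this]
  let X : Fin r → V → Qb := fun i v => x v i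
  let H : Subalgebra (Rl p) (V → Qb) := Algebra.adjoin (Rl p) (Set.range X)
  have hXH : ∀ i, X i ∈ H := fun i => Algebra.subset_adjoin ⟨i, rfl⟩
  refine ⟨H, ?_, ?_, ?_, ?_⟩
  · intro h hh σ v
    induction hh using Algebra.adjoin_induction with
    | mem h hh =>
      obtain ⟨i, rfl⟩ := hh
      exact hxeq σ v i
    | algebraMap a => exact (σ.commutes (a : ℚ)).symm
    | add a b _ _ ha hb => simp [ha, hb]
    | mul a b _ _ ha hb => simp [ha, hb]
  · refine fg_adjoin_of_finite (Set.finite_range X) ?_
    rintro _ ⟨i, rfl⟩
    exact isIntegral_pi_of_forall _ fun v => hxint v i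
  · intro v v' hvv'
    by_contra hcon
    push Not at hcon
    apply hvv'
    apply hinj
    funext w
    rw [hx v w, hx v' w]
    refine Finset.sum_congr rfl fun i _ => ?_
    have := hcon (X i) (hXH i)
    show x v i * _ = x v' i * _
    rw [show x v i = x v' i from this]
  · have hle : H ≤ (mulMap H H).range.comap (pullback (Rl p) (fun q : V × V => q.1 + q.2)) := by
      refine Algebra.adjoin_le ?_
      rintro _ ⟨i, rfl⟩
      rw [SetLike.mem_coe, Subalgebra.mem_comap, ← Subalgebra.mem_toSubmodule,
        range_mulMap_toSubmodule]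
      have h1 : pullback (Rl p) (fun q : V × V => q.1 + q.2) (X i) =
          ∑ j, ∑ k, c j k i • (fun q : V × V => X j q.1 * X k q.2) := by
        funext q
        simp only [pullback_apply, Finset.sum_apply, Pi.smul_apply]
        rw [show X i (q.1 + q.2) = x (q.1 + q.2) i from rfl, hxadd]
        refine Finset.sum_congr rfl fun j _ => Finset.sum_congr rfl fun k _ => ?_
        rw [Algebra.smul_def]
        rfl
      rw [h1]
      refine Submodule.sum_mem _ fun j _ => Submodule.sum_mem _ fun k _ =>
        Submodule.smul_mem _ _ (Submodule.subset_span ⟨X j, hXH j, X k, hXH k, rfl⟩)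
    intro h hh
    have h2 := hle hh
    rw [Subalgebra.mem_comap, ← Subalgebra.mem_toSubmodule, range_mulMap_toSubmodule] at h2
    exact h2

end Fermat.Agent.S19
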