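/-
S19 Part A, block A3e: a Hopf order is a full lattice.
-/
import Fermat.Agent.S19.Defs
import Fermat.Agent.S19.BaseRing
import Fermat.Agent.S19.Descent

set_option autoImplicit false
set_option linter.style.haveILetI false

namespace Fermat.Agent.S19

/-- A unital subalgebra (over a field) of the functions on a finite set which separates the points
is everything. -/
theorem subalgebra_eq_top_of_separates {K X : Type*} [Field K] [Finite X]
    (S : Subalgebra K (X → K)) (hS : ∀ x y : X, x ≠ y → ∃ h ∈ S, h x ≠ h y) : S = ⊤ := by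
  classical
  haveI := Fintype.ofFinite X
  have hg : ∀ x y : X, x ≠ y → ∃ g ∈ S, g x = 1 ∧ g y = 0 := by
    intro x y hxy
    obtain ⟨h, hh, hne⟩ := hS x y hxy
    refine ⟨(h x - h y)⁻¹ • (h - algebraMap K (X → K) (h y)),
      S.smul_mem (S.sub_mem hh (S.algebraMap_mem _)) _, ?_, ?_⟩
    · have : h x - h y ≠ 0 := sub_ne_zero.2 hne
      simp [this]
    · simp
  choose! g hgS hg1 hg0 using hg
  have hδ : ∀ x : X, (Pi.single x (1 : K) : X → K) ∈ S := by
    intro x
    have h1 : (Pi.single x (1 : K) : X → K) = ∏ y ∈ Finset.univ.erase x, g x y := by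
      funext z
      rw [Finset.prod_apply]
      by_cases hz : z = x
      · subst hz
        rw [Pi.single_eq_same]
        symm
        refine Finset.prod_eq_one fun y hy => ?_
        exact hg1 z y (Finset.ne_of_mem_erase hy).symm
      · rw [Pi.single_eq_of_ne hz]
        symm
        refine Finset.prod_eq_zero (i := z) (Finset.mem_erase.2 ⟨hz, Finset.mem_univ _⟩) ?_
        exact hg0 x z (Ne.symm hz)
    rw [h1]
    refine S.prod_mem fun y hy => ?_
    exact hgS x y (Finset.ne_of_mem_erase hy).symm
  rw [eq_top_iff]
  intro f _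
  have h2 : f = ∑ x, f x • (Pi.single x (1 : K) : X → K) := by
    funext z
    simp [Finset.sum_apply, Pi.single_apply]
  rw [h2]
  exact S.sum_mem fun x _ => S.smul_mem (hδ x) _

/-- A3e : a Hopf order is a full lattice (free since `ℤ_(p)` is a PID; independent by A1b; spanning
because a point-separating subalgebra of functions on a finite set spans everything). -/
theorem IsHopfOrder.isFullLattice {p : ℕ} [Fact p.Prime] {M : Type} [AddCommGroup M] [Finite M]
    [DistribMulAction Gal M] {H : Subalgebra (Rl p) (M → Qb)} (hH : IsHopfOrder p H) :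
    IsFullLattice H := by
  classical
  haveI := Rl_isPrincipalIdealRing p
  haveI : Module.Finite (Rl p) H := Module.Finite.of_fg hH.fg
  have hinj : Function.Injective (algebraMap (Rl p) Qb) :=
    (algebraMap ℚ Qb).injective.comp Subtype.val_injective
  haveI : Module.IsTorsionFree (Rl p) H := by
    refine Module.IsTorsionFree.of_smul_eq_zero fun r m hrm => ?_
    by_cases hr : r = 0
    · exact Or.inl hr
    · right
      apply Subtype.ext
      funext x
      have h1 : (r • (m : M → Qb)) x = 0 := congrFun (congrArg Subtype.val hrm) x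
      rw [Pi.smul_apply, Algebra.smul_def] at h1
      have h2 : algebraMap (Rl p) Qb r ≠ 0 := by
        intro h0
        exact hr (hinj (h0.trans (map_zero _).symm))
      exact (mul_eq_zero.1 h1).resolve_left h2
  haveI : Module.Free (Rl p) H := inferInstance
  let b := Module.Free.chooseBasis (Rl p) H
  have hindR : LinearIndependent (Rl p) (fun i => ((b i : H) : M → Qb)) :=
    b.linearIndependent.map' H.val.toLinearMap
      (LinearMap.ker_eq_bot.2 Subtype.val_injective)
  have hind : LinearIndependent Qb (fun i => ((b i : H) : M → Qb)) :=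
    linearIndependent_of_equivariant' p _ (fun i σ w => hH.equivariant _ (b i).2 σ w) hindR
  refine ⟨_, inferInstance, b, hind, ?_⟩
  -- the span contains `H`
  have hHle : ∀ h ∈ H, h ∈ Submodule.span Qb (Set.range fun i => ((b i : H) : M → Qb)) := by
    intro h hh
    have h1 : h = ∑ i, b.repr ⟨h, hh⟩ i • ((b i : H) : M → Qb) := by
      have h0 := congrArg (fun z : H => (z : M → Qb)) (b.sum_repr ⟨h, hh⟩)
      have h3 : ((∑ i, b.repr ⟨h, hh⟩ i • b i : H) : M → Qb) =
          ∑ i, b.repr ⟨h, hh⟩ i • ((b i : H) : M → Qb) := by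
        rw [← Subalgebra.coe_val, map_sum]
        rfl
      exact h0.symm.trans h3
    rw [h1]
    refine Submodule.sum_mem _ fun i _ => ?_
    rw [← algebraMap_smul Qb (b.repr ⟨h, hh⟩ i) ((b i : H) : M → Qb)]
    exact Submodule.smul_mem _ _ (Submodule.subset_span ⟨i, rfl⟩)
  have hspan : Submodule.span Qb (Set.range fun i => ((b i : H) : M → Qb)) =
      Submodule.span Qb (H : Set (M → Qb)) := by
    apply le_antisymm
    · rw [Submodule.span_le]
      rintro _ ⟨i, rfl⟩
      exact Submodule.subset_span (b i).2
    · rw [Submodule.span_le]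
      exact hHle
  rw [hspan]
  have hadj : Subalgebra.toSubmodule (Algebra.adjoin Qb (H : Set (M → Qb))) =
      Submodule.span Qb (H : Set (M → Qb)) := by
    rw [Algebra.adjoin_eq_span]
    congr 1
    exact congrArg _ (Submonoid.closure_eq H.toSubmonoid)
  rw [← hadj, subalgebra_eq_top_of_separates (Algebra.adjoin Qb (H : Set (M → Qb))) ?_]
  · rfl
  · intro x y hxy
    obtain ⟨h, hh, hne⟩ := hH.separates x y hxy
    exact ⟨h, Algebra.subset_adjoin hh, hne⟩

end Fermat.Agent.S19
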