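/-
S19 Part A, node A7b : Hopf orders pass to quotients.  Owner: helper240.

`H'' := {h | h ∘ φ ∈ H}`.  The key points:
* the trace `Tr f x = ∑ n ∈ ker φ, f (x + n)` of an element of `H` is equivariant, hence a rational
  combination of the basis of `H`; so a nonzero integer multiple lies in `H`;
* `Hφ := H ∩ {functions constant on the cosets}` is saturated in `H`, hence a direct summand; the
  projection `P`, extended `ℚ̄`-linearly, is the identity on all functions constant on cosets;
  applying it in each of the two variables rewrites `comul h` with entries in `Hφ`.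
-/
import Fermat.Agent.S19.Defs
import Fermat.Agent.S19.BaseRing
import Fermat.Agent.S19.FullLattice

set_option autoImplicit false

namespace Fermat.Agent.S19

namespace ClosureQuot

section Basis

variable {p : ℕ} {M : Type} [AddCommGroup M] [DistribMulAction Gal M]

/-- An equivariant function has rational coordinates in an equivariant basis; so some nonzero integer
multiple lies in the lattice. -/
theorem exists_nsmul_mem
    (hfix : ∀ x : Qb, (∀ σ : Gal, σ x = x) → ∃ q : ℚ, algebraMap ℚ Qb q = x)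
    {H : Subalgebra (Rl p) (M → Qb)}
    (hequiv : ∀ h ∈ H, ∀ (σ : Gal) (x : M), h (σ • x) = σ (h x))
    {ι : Type} [Fintype ι] (B : Module.Basis ι Qb (M → Qb)) (hB : ∀ i, B i ∈ H)
    (f : M → Qb) (hf : ∀ (σ : Gal) (x : M), f (σ • x) = σ (f x)) :
    ∃ d : ℤ, d ≠ 0 ∧ d • f ∈ H := by
  -- the coordinates are fixed by Galois
  have hfixed : ∀ i, ∀ σ : Gal, σ (B.repr f i) = B.repr f i := by
    intro i σ
    have hg : (∑ j, σ (B.repr f j) • B j) = f := by
      funext x
      have h1 : f (σ⁻¹ • x) = ∑ j, B.repr f j * B j (σ⁻¹ • x) := by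
        conv_lhs => rw [← B.sum_repr f]
        simp [Finset.sum_apply]
      have h2 : f x = σ (f (σ⁻¹ • x)) := by
        rw [← hf σ, smul_inv_smul]
      rw [h2, h1, map_sum]
      simp only [Finset.sum_apply, Pi.smul_apply, smul_eq_mul, map_mul]
      refine Finset.sum_congr rfl fun j _ => ?_
      rw [← hequiv _ (hB j) σ, smul_inv_smul]
    have h3 := congrArg (fun g => B.repr g i) hg
    simp only [map_sum, map_smul, Module.Basis.repr_self, Finsupp.coe_finsetSum,
      Finset.sum_apply, Finsupp.smul_apply, smul_eq_mul] at h3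
    rw [Finset.sum_eq_single i (fun j _ hj => by simp [hj])
      (fun h => absurd (Finset.mem_univ i) h)] at h3
    simpa using h3
  choose q hq using fun i => hfix _ (hfixed i)
  obtain ⟨d, hd⟩ := IsLocalization.exist_integer_multiples_of_finite (nonZeroDivisors ℤ) q
  refine ⟨d, nonZeroDivisors.coe_ne_zero d, ?_⟩
  choose z hz using hd
  have : (d : ℤ) • f = ∑ i, z i • B i := by
    conv_lhs => rw [← B.sum_repr f]
    rw [Finset.smul_sum]
    refine Finset.sum_congr rfl fun i _ => ?_
    rw [← hq i]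
    have h4 : ((z i : ℤ) : ℚ) = (d : ℤ) * q i := by
      have := hz i
      simpa [Algebra.smul_def] using this
    funext x
    simp only [Pi.smul_apply, smul_eq_mul, zsmul_eq_mul]
    have h5 : ((z i : ℤ) : Qb) = ((d : ℤ) : Qb) * algebraMap ℚ Qb (q i) := by
      have := congrArg (algebraMap ℚ Qb) h4
      simpa using this
    rw [h5]; ring
  rw [this]
  exact Subalgebra.sum_mem _ fun i _ => Subalgebra.zsmul_mem _ (hB i) _

end Basis

section Projection

/-- A saturated submodule of a finite module over a PID is the image of a projection. -/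
theorem exists_projection {R N : Type} [CommRing R] [IsDomain R] [IsPrincipalIdealRing R]
    [AddCommGroup N] [Module R N] [Module.Finite R N] (S : Submodule R N)
    (hsat : ∀ (r : R) (x : N), r ≠ 0 → r • x ∈ S → x ∈ S) :
    ∃ P : N →ₗ[R] N, (∀ x, P x ∈ S) ∧ ∀ x ∈ S, P x = x := by
  have : Module.IsTorsionFree R (N ⧸ S) := by
    refine Module.IsTorsionFree.of_smul_eq_zero fun r m hm => ?_
    obtain ⟨x, rfl⟩ := S.mkQ_surjective m
    by_cases hr : r = 0
    · exact Or.inl hr
    · right
      rw [← map_smul, Submodule.mkQ_apply, Submodule.Quotient.mk_eq_zero] at hm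
      rw [Submodule.mkQ_apply, Submodule.Quotient.mk_eq_zero]
      exact hsat r x hr hm
  obtain ⟨sec, hsec⟩ :=
    Module.projective_lifting_property S.mkQ LinearMap.id S.mkQ_surjective
  have hsec' : ∀ y, (Submodule.Quotient.mk (sec y) : N ⧸ S) = y := fun y => by
    have := congrArg (fun f => f y) hsec
    simpa using this
  refine ⟨LinearMap.id - sec ∘ₗ S.mkQ, fun x => ?_, fun x hx => ?_⟩
  · rw [← Submodule.Quotient.mk_eq_zero, ← Submodule.mkQ_apply]
    simp [hsec']
  · have : S.mkQ x = 0 := by rwa [Submodule.mkQ_apply, Submodule.Quotient.mk_eq_zero]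
    simp [this]

end Projection

section Trace

variable {M M' : Type} [AddCommGroup M] [AddCommGroup M'] [Fintype M] [DecidableEq M']

/-- The trace over the kernel of `φ`. -/
noncomputable def tr (φ : M →+ M') : (M → Qb) →ₗ[Qb] (M → Qb) where
  toFun f x := ∑ n : M, if φ n = 0 then f (x + n) else 0
  map_add' f g := by
    funext x
    simp only [Pi.add_apply, ← Finset.sum_add_distrib]
    refine Finset.sum_congr rfl fun n _ => ?_
    split_ifs <;> simp
  map_smul' c f := by
    funext x
    simp only [Pi.smul_apply, smul_eq_mul, RingHom.id_apply, Finset.mul_sum]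
    refine Finset.sum_congr rfl fun n _ => ?_
    split_ifs <;> simp

theorem tr_apply (φ : M →+ M') (f : M → Qb) (x : M) :
    tr φ f x = ∑ n : M, if φ n = 0 then f (x + n) else 0 := rfl

theorem tr_equivariant [DistribMulAction Gal M] [DistribMulAction Gal M']
    (φ : M →+ M') (heq : ∀ (σ : Gal) x, φ (σ • x) = σ • φ x)
    (f : M → Qb) (hf : ∀ (σ : Gal) (x : M), f (σ • x) = σ (f x)) (σ : Gal) (x : M) :
    tr φ f (σ • x) = σ (tr φ f x) := by
  rw [tr_apply, tr_apply, map_sum, ← Equiv.sum_comp (MulAction.toPerm σ)]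
  refine Finset.sum_congr rfl fun n _ => ?_
  simp only [MulAction.toPerm_apply, heq, smul_eq_zero_iff_eq, ← smul_add, hf]
  split_ifs <;> simp

theorem tr_invariant (φ : M →+ M') (f : M → Qb) {x y : M} (hxy : φ x = φ y) :
    tr φ f x = tr φ f y := by
  rw [tr_apply, tr_apply, ← Equiv.sum_comp (Equiv.addLeft (y - x))]
  refine Finset.sum_congr rfl fun n _ => ?_
  have h1 : φ (y - x + n) = φ n := by simp [hxy]
  have h2 : x + (y - x + n) = y + n := by abel
  simp only [Equiv.coe_addLeft, h1, h2]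

/-- The order of the kernel, in `ℚ̄`. -/
noncomputable def kerCard (φ : M →+ M') : Qb := ∑ n : M, if φ n = 0 then 1 else 0

theorem kerCard_ne_zero (φ : M →+ M') : kerCard φ ≠ 0 := by
  unfold kerCard
  rw [Finset.sum_boole]
  have : 0 < (Finset.univ.filter fun n : M => φ n = 0).card :=
    Finset.card_pos.mpr ⟨0, by simp⟩
  exact_mod_cast this.ne'

theorem tr_of_invariant (φ : M →+ M') (f : M → Qb) (hf : ∀ x y, φ x = φ y → f x = f y) :
    tr φ f = kerCard φ • f := by
  funext x
  rw [tr_apply, Pi.smul_apply, smul_eq_mul, kerCard, Finset.sum_mul]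
  refine Finset.sum_congr rfl fun n _ => ?_
  split_ifs with h
  · rw [one_mul]; exact hf _ _ (by simp [h])
  · simp

end Trace

section Main

variable {p : ℕ} {M M' : Type} [AddCommGroup M] [AddCommGroup M'] [Fintype M] [DecidableEq M']
  [DistribMulAction Gal M] [DistribMulAction Gal M']

/-- The `ℚ̄`-linear extension of the projection of `H` onto its invariant part. -/
theorem exists_projK [IsPrincipalIdealRing (Rl p)]
    (hfix : ∀ x : Qb, (∀ σ : Gal, σ x = x) → ∃ q : ℚ, algebraMap ℚ Qb q = x)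
    (φ : M →+ M') (heq : ∀ (σ : Gal) x, φ (σ • x) = σ • φ x)
    {H : Subalgebra (Rl p) (M → Qb)}
    (hequiv : ∀ h ∈ H, ∀ (σ : Gal) (x : M), h (σ • x) = σ (h x))
    (hfg : (Subalgebra.toSubmodule H).FG)
    {ι : Type} [Fintype ι] (b : Module.Basis ι (Rl p) H) (B : Module.Basis ι Qb (M → Qb))
    (hBb : ∀ i, B i = ((b i : H) : M → Qb)) :
    ∃ PK : (M → Qb) →ₗ[Qb] (M → Qb), (∀ h ∈ H, PK h ∈ H) ∧
      (∀ h ∈ H, ∀ x y, φ x = φ y → PK h x = PK h y) ∧
      ∀ f : M → Qb, (∀ x y, φ x = φ y → f x = f y) → PK f = f := by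
  have hB : ∀ i, B i ∈ H := fun i => by rw [hBb]; exact (b i).2
  have : Module.Finite (Rl p) H := Module.Finite.iff_fg.mpr hfg
  let S : Submodule (Rl p) H :=
    { carrier := {h | ∀ x y, φ x = φ y → (h : M → Qb) x = (h : M → Qb) y}
      add_mem' := fun {a c} ha hc x y hxy => by
        simp [ha x y hxy, hc x y hxy]
      zero_mem' := fun x y _ => by simp
      smul_mem' := fun r a ha x y hxy => by
        simp [ha x y hxy] }
  have hsat : ∀ (r : Rl p) (x : H), r ≠ 0 → r • x ∈ S → x ∈ S := by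
    intro r h hr hrh x y hxy
    have h1 := hrh x y hxy
    have hr' : (r : ℚ) ≠ 0 := fun h0 => hr (Subtype.ext h0)
    have h2 : (r : ℚ) • (h : M → Qb) x = (r : ℚ) • (h : M → Qb) y := h1
    exact smul_right_injective Qb hr' h2
  obtain ⟨P, hP1, hP2⟩ := exists_projection S hsat
  let PK : (M → Qb) →ₗ[Qb] (M → Qb) := B.constr Qb (fun i => ((P (b i) : H) : M → Qb))
  have hPK : ∀ h : H, PK (h : M → Qb) = ((P h : H) : M → Qb) := by
    have h0 : (PK.restrictScalars (Rl p)) ∘ₗ H.val.toLinearMap = H.val.toLinearMap ∘ₗ P :=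
      b.ext fun i => by
        simp only [LinearMap.comp_apply, LinearMap.restrictScalars_apply, AlgHom.toLinearMap_apply,
          Subalgebra.coe_val, PK, ← hBb, Module.Basis.constr_basis]
    intro h
    exact LinearMap.congr_fun h0 h
  refine ⟨PK, fun h hh => ?_, fun h hh => ?_, fun f hf => ?_⟩
  · rw [hPK ⟨h, hh⟩]; exact (P ⟨h, hh⟩).2
  · rw [hPK ⟨h, hh⟩]; exact hP1 ⟨h, hh⟩
  · have h1 : ∀ i, PK (tr φ (B i)) = tr φ (B i) := by
      intro i
      obtain ⟨d, hd0, hd⟩ := exists_nsmul_mem hfix hequiv B hB (tr φ (B i))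
        (tr_equivariant φ heq _ (hequiv _ (hB i)))
      have h2 : (⟨d • tr φ (B i), hd⟩ : H) ∈ S := fun x y hxy => by
        simp only [Pi.smul_apply]
        rw [tr_invariant φ (B i) hxy]
      have h3 := hPK ⟨_, hd⟩
      rw [hP2 _ h2] at h3
      simp only [map_zsmul] at h3
      exact smul_right_injective _ hd0 h3
    have h4 : PK ∘ₗ tr φ = tr φ := B.ext h1
    have h6 := LinearMap.congr_fun h4 f
    rw [LinearMap.comp_apply, tr_of_invariant φ f hf, map_smul] at h6
    exact smul_right_injective _ (kerCard_ne_zero φ) h6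

/-- Invariant elements of `H` separate the fibres of `φ`. -/
theorem exists_separating
    (hfix : ∀ x : Qb, (∀ σ : Gal, σ x = x) → ∃ q : ℚ, algebraMap ℚ Qb q = x)
    (φ : M →+ M') (heq : ∀ (σ : Gal) x, φ (σ • x) = σ • φ x)
    {H : Subalgebra (Rl p) (M → Qb)}
    (hequiv : ∀ h ∈ H, ∀ (σ : Gal) (x : M), h (σ • x) = σ (h x))
    {ι : Type} [Fintype ι] (B : Module.Basis ι Qb (M → Qb)) (hB : ∀ i, B i ∈ H)
    (x y : M) (hxy : φ x ≠ φ y) :
    ∃ h ∈ H, (∀ u v, φ u = φ v → h u = h v) ∧ h x ≠ h y := by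
  by_contra hcon
  push Not at hcon
  have key : ∀ i, tr φ (B i) x = tr φ (B i) y := by
    intro i
    obtain ⟨d, hd0, hd⟩ := exists_nsmul_mem hfix hequiv B hB (tr φ (B i))
      (tr_equivariant φ heq _ (hequiv _ (hB i)))
    have h1 := hcon _ hd (fun u v huv => by
      simp only [Pi.smul_apply]
      rw [tr_invariant φ (B i) huv])
    simp only [Pi.smul_apply] at h1
    exact smul_right_injective _ hd0 h1
  have h2 : (LinearMap.proj x : (M → Qb) →ₗ[Qb] Qb) ∘ₗ tr φ = LinearMap.proj y ∘ₗ tr φ :=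
    B.ext fun i => by simpa using key i
  let f : M → Qb := fun z => if φ z = φ x then 1 else 0
  have hf : ∀ u v, φ u = φ v → f u = f v := fun u v huv => by simp [f, huv]
  have h3 := LinearMap.congr_fun h2 f
  simp only [LinearMap.comp_apply, LinearMap.proj_apply, tr_of_invariant φ f hf, Pi.smul_apply,
    smul_eq_mul] at h3
  have hfx : f x = 1 := by simp [f]
  have hfy : f y = 0 := by simp [f, hxy.symm]
  rw [hfx, hfy, mul_one, mul_zero] at h3
  exact kerCard_ne_zero φ h3

omit [Fintype M] [DecidableEq M'] [DistribMulAction Gal M] [DistribMulAction Gal M'] in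
/-- Rewriting the comultiplication with invariant entries. -/
theorem comul_aux (φ : M →+ M') (hφ : Function.Surjective φ)
    {H : Subalgebra (Rl p) (M → Qb)} (PK : (M → Qb) →ₗ[Qb] (M → Qb))
    (hPK1 : ∀ h ∈ H, PK h ∈ H)
    (hPK2 : ∀ h ∈ H, ∀ x y, φ x = φ y → PK h x = PK h y)
    (hPK3 : ∀ f : M → Qb, (∀ x y, φ x = φ y → f x = f y) → PK f = f)
    (H'' : Subalgebra (Rl p) (M' → Qb)) (hH'' : ∀ g, g ∈ H'' ↔ (fun z => g (φ z)) ∈ H)
    (h : M' → Qb)
    (hh : (fun q : M × M => h (φ (q.1 + q.2))) ∈ Submodule.span (Rl p) (prodFun H H)) :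
    (fun q : M' × M' => h (q.1 + q.2)) ∈ Submodule.span (Rl p) (prodFun H'' H'') := by
  let s : M' → M := Function.surjInv hφ
  have hs : ∀ z, φ (s z) = z := Function.surjInv_eq hφ
  let T1 : (M × M → Qb) →ₗ[Qb] (M × M → Qb) := LinearMap.pi fun q =>
    (LinearMap.proj q.1) ∘ₗ PK ∘ₗ (LinearMap.funLeft Qb Qb (fun x₀ : M => (x₀, q.2)))
  let T2 : (M × M → Qb) →ₗ[Qb] (M × M → Qb) := LinearMap.pi fun q =>
    (LinearMap.proj q.2) ∘ₗ PK ∘ₗ (LinearMap.funLeft Qb Qb (fun y₀ : M => (q.1, y₀)))
  let T3 : (M × M → Qb) →ₗ[Qb] (M' × M' → Qb) :=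
    LinearMap.funLeft Qb Qb (fun q : M' × M' => (s q.1, s q.2))
  have hT1 : ∀ (F : M × M → Qb) (q : M × M), T1 F q = PK (fun x₀ => F (x₀, q.2)) q.1 :=
    fun _ _ => rfl
  have hT2 : ∀ (F : M × M → Qb) (q : M × M), T2 F q = PK (fun y₀ => F (q.1, y₀)) q.2 :=
    fun _ _ => rfl
  have hT3 : ∀ (F : M × M → Qb) (q : M' × M'), T3 F q = F (s q.1, s q.2) :=
    fun _ _ => rfl
  let Θ : (M × M → Qb) →ₗ[Rl p] (M' × M' → Qb) := (T3 ∘ₗ T2 ∘ₗ T1).restrictScalars (Rl p)
  have hΘ : ∀ F ∈ prodFun H H, Θ F ∈ Submodule.span (Rl p) (prodFun H'' H'') := by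
    rintro F ⟨a, ha, c, hc, rfl⟩
    refine Submodule.subset_span ⟨fun z => PK a (s z), ?_, fun z => PK c (s z), ?_, ?_⟩
    · rw [hH'']
      have : (fun z => PK a (s (φ z))) = PK a := funext fun z => hPK2 a ha _ _ (hs _)
      rw [this]; exact hPK1 a ha
    · rw [hH'']
      have : (fun z => PK c (s (φ z))) = PK c := funext fun z => hPK2 c hc _ _ (hs _)
      rw [this]; exact hPK1 c hc
    · have e1 : T1 (fun q : M × M => a q.1 * c q.2) = fun q : M × M => PK a q.1 * c q.2 := by
        funext q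
        rw [hT1]
        have : (fun x₀ : M => a x₀ * c q.2) = c q.2 • a := by
          funext x₀; simp [mul_comm]
        simp only [this, map_smul, Pi.smul_apply, smul_eq_mul, mul_comm]
      have e2 : T2 (fun q : M × M => PK a q.1 * c q.2) = fun q : M × M => PK a q.1 * PK c q.2 := by
        funext q
        rw [hT2]
        have : (fun y₀ : M => PK a q.1 * c y₀) = PK a q.1 • c := by
          funext y₀; simp
        simp only [this, map_smul, Pi.smul_apply, smul_eq_mul]
      funext q
      change T3 (T2 (T1 _)) q = _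
      rw [e1, e2, hT3]
  have hΘ' := (Submodule.map_span_le Θ (prodFun H H) _).mpr hΘ
  have h1 := hΘ' (Submodule.mem_map_of_mem hh)
  have e1 : T1 (fun q : M × M => h (φ (q.1 + q.2))) = fun q : M × M => h (φ (q.1 + q.2)) := by
    funext q
    rw [hT1, hPK3 _ (fun x y hxy => by simp [hxy])]
  have e2 : T2 (fun q : M × M => h (φ (q.1 + q.2))) = fun q : M × M => h (φ (q.1 + q.2)) := by
    funext q
    rw [hT2, hPK3 _ (fun x y hxy => by simp [hxy])]
  have e3 : Θ (fun q : M × M => h (φ (q.1 + q.2))) = fun q : M' × M' => h (q.1 + q.2) := by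
    funext q
    change T3 (T2 (T1 _)) q = _
    rw [e1, e2, hT3]
    simp [hs]
  rwa [e3] at h1

end Main

section Final

variable {p : ℕ} {M M' : Type} [AddCommGroup M] [AddCommGroup M'] [Finite M]
  [DistribMulAction Gal M] [DistribMulAction Gal M']

/-- A7b, with the three inputs from the other nodes (A0a, A0e, A3e) as hypotheses. -/
theorem of_surjective_aux [IsPrincipalIdealRing (Rl p)]
    (hfix : ∀ x : Qb, (∀ σ : Gal, σ x = x) → ∃ q : ℚ, algebraMap ℚ Qb q = x)
    (φ : M →+ M') (hφ : Function.Surjective φ) (heq : ∀ (σ : Gal) x, φ (σ • x) = σ • φ x)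
    {H : Subalgebra (Rl p) (M → Qb)} (hH : IsHopfOrder p H) (hfull : IsFullLattice H) :
    HasHopfOrder p M' := by
  classical
  have : Fintype M := Fintype.ofFinite M
  obtain ⟨ι, _, b, hli, hsp⟩ := hfull
  let B : Module.Basis ι Qb (M → Qb) := Module.Basis.mk hli (by rw [hsp])
  have hBb : ∀ i, B i = ((b i : H) : M → Qb) := fun i => Module.Basis.mk_apply hli _ i
  have hB : ∀ i, B i ∈ H := fun i => by rw [hBb]; exact (b i).2
  let pull : (M' → Qb) →ₐ[Rl p] (M → Qb) :=
    AlgHom.pi fun x : M => Pi.evalAlgHom (Rl p) (fun _ : M' => Qb) (φ x)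
  have hpull : ∀ g : M' → Qb, pull g = fun z => g (φ z) := fun _ => rfl
  let H'' : Subalgebra (Rl p) (M' → Qb) := H.comap pull
  have hH'' : ∀ g, g ∈ H'' ↔ (fun z => g (φ z)) ∈ H := fun g => by
    rw [Subalgebra.mem_comap, hpull]
  obtain ⟨PK, hPK1, hPK2, hPK3⟩ := exists_projK hfix φ heq hH.equivariant hH.fg b B hBb
  refine ⟨H'', ?_, ?_, ?_, ?_⟩
  · -- equivariance
    intro g hg σ x'
    obtain ⟨x, rfl⟩ := hφ x'
    rw [← heq]
    exact hH.equivariant _ ((hH'' g).mp hg) σ x
  · -- finite generation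
    have h1 : Module.Finite (Rl p) H := Module.Finite.iff_fg.mpr hH.fg
    have h2 : IsNoetherian (Rl p) H := isNoetherian_of_isNoetherianRing_of_finite (Rl p) H
    let j : H'' →ₗ[Rl p] H :=
      { toFun := fun g => ⟨pull g, g.2⟩
        map_add' := fun a c => Subtype.ext (by simp)
        map_smul' := fun r a => Subtype.ext (by simp) }
    have hj : Function.Injective j := by
      intro a c hac
      have h3 : pull (a : M' → Qb) = pull (c : M' → Qb) := congrArg Subtype.val hac
      apply Subtype.ext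
      funext x'
      obtain ⟨x, rfl⟩ := hφ x'
      exact congrFun h3 x
    have h4 : Module.Finite (Rl p) H'' := Module.Finite.of_injective j hj
    exact Module.Finite.iff_fg.mp h4
  · -- separation
    intro x' y' hxy
    obtain ⟨x, rfl⟩ := hφ x'
    obtain ⟨y, rfl⟩ := hφ y'
    obtain ⟨h, hh, hinv, hne⟩ := exists_separating hfix φ heq hH.equivariant B hB x y hxy
    refine ⟨fun z => h (Function.surjInv hφ z), ?_, ?_⟩
    · rw [hH'']
      have : (fun z => h (Function.surjInv hφ (φ z))) = h :=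
        funext fun z => hinv _ _ (Function.surjInv_eq hφ _)
      rw [this]; exact hh
    · simp only
      rw [hinv _ x (Function.surjInv_eq hφ _), hinv _ y (Function.surjInv_eq hφ _)]
      exact hne
  · -- comultiplication
    intro g hg
    refine comul_aux φ hφ PK hPK1 hPK2 hPK3 H'' hH'' g ?_
    exact hH.comul _ ((hH'' g).mp hg)

end Final

end ClosureQuot

/-- A7b : quotients (`H'' := {h | h ∘ φ ∈ H}`; saturated sublattice of a free module over a PID is
a direct summand, then compare coefficients using independence over `ℚ̄`). -/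
theorem HasHopfOrder.of_surjective {p : ℕ} [Fact p.Prime] {M M' : Type} [AddCommGroup M]
    [AddCommGroup M'] [Finite M] [DistribMulAction Gal M] [DistribMulAction Gal M']
    (φ : M →+ M') (hφ : Function.Surjective φ) (heq : ∀ (σ : Gal) x, φ (σ • x) = σ • φ x)
    (h : HasHopfOrder p M) : HasHopfOrder p M' := by
  obtain ⟨H, hH⟩ := h
  have := Rl_isPrincipalIdealRing p
  exact ClosureQuot.of_surjective_aux exists_rat_of_fixed φ hφ heq hH hH.isFullLattice

end Fermat.Agent.S19
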