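/-
S19 Part A, node A4 (owner helper246): the Hopf algebra structure on a full lattice of functions on
a finite abelian group which is closed under comultiplication.

All axioms are checked after evaluation at points: the evaluations `ev x ⊗ ev y` (resp. triple
evaluations) are jointly injective on `A ⊗ A` (resp. on `A ⊗ (A ⊗ A)`).  To keep instance search
fast we work with an abstract algebra `A` and an algebra map `φ : A → (X → K)`.
-/
import Mathlib
import Fermat.Agent.S19.Defs

set_option autoImplicit false

noncomputable section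

namespace Fermat.Agent.S19

namespace HopfOfLattice

open scoped TensorProduct
open Algebra.TensorProduct (productMap)

variable {R K : Type} [CommRing R] [Field K] [Algebra R K]

section General

variable {X A : Type} [CommRing A] [Algebra R A] (φ : A →ₐ[R] (X → K))

/-- Evaluation at a point. -/
def ev (x : X) : A →ₐ[R] K := (Pi.evalAlgHom R (fun _ : X => K) x).comp φ

@[simp] theorem ev_apply (x : X) (h : A) : ev φ x h = φ h x := rfl

/-- `A` has an `R`-basis which `φ` maps to a `K`-basis of the function space. -/
def IsLat : Prop :=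
  ∃ (ι : Type) (_ : Fintype ι) (b : Module.Basis ι R A),
    LinearIndependent K (fun i => φ (b i)) ∧ Submodule.span K (Set.range fun i => φ (b i)) = ⊤

variable {φ}

/-- Joint injectivity of evaluations on a tensor product with a full lattice. -/
theorem eq_zero_of_forall_productMap {N Y : Type} [CommRing N] [Algebra R N]
    (hH : IsLat φ) (g : Y → N →ₐ[R] K) (hg : ∀ n : N, (∀ y, g y n = 0) → n = 0)
    (t : A ⊗[R] N) (ht : ∀ x y, productMap (ev φ x) (g y) t = 0) : t = 0 := by
  classical
  obtain ⟨ι, _, b, hli, -⟩ := hH
  obtain ⟨c, rfl⟩ := TensorProduct.eq_repr_basis_left b t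
  have hc : c = 0 := by
    ext i
    apply hg
    intro y
    have h1 : ∑ j, g y (c j) • φ (b j) = 0 := by
      funext x
      have h2 := ht x y
      rw [Finsupp.sum_fintype _ _ (by simp), map_sum] at h2
      simp only [Algebra.TensorProduct.productMap_apply_tmul, ev_apply] at h2
      rw [Finset.sum_apply, Pi.zero_apply, ← h2]
      refine Finset.sum_congr rfl fun j _ => ?_
      rw [Pi.smul_apply, smul_eq_mul, mul_comm]
    exact (Fintype.linearIndependent_iff.mp hli) (fun j => g y (c j)) h1 i
  rw [hc, Finsupp.sum_zero_index]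

theorem eq_of_forall_productMap {N Y : Type} [CommRing N] [Algebra R N]
    (hH : IsLat φ) (g : Y → N →ₐ[R] K) (hg : ∀ n : N, (∀ y, g y n = 0) → n = 0)
    (t t' : A ⊗[R] N) (ht : ∀ x y, productMap (ev φ x) (g y) t = productMap (ev φ x) (g y) t') :
    t = t' := by
  rw [← sub_eq_zero]
  apply eq_zero_of_forall_productMap hH g hg
  intro x y
  rw [map_sub, ht, sub_self]

/-- Joint injectivity on `A ⊗ A`. -/
theorem eq_of_forall_ev₂ (hH : IsLat φ) (hφ : Function.Injective φ) (t t' : A ⊗[R] A)
    (ht : ∀ x y, productMap (ev φ x) (ev φ y) t = productMap (ev φ x) (ev φ y) t') : t = t' :=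
  eq_of_forall_productMap hH (ev φ)
    (fun n hn => hφ (by rw [map_zero]; exact funext hn)) t t' ht

/-- Joint injectivity on `A ⊗ (A ⊗ A)`. -/
theorem eq_of_forall_ev₃ (hH : IsLat φ) (hφ : Function.Injective φ) (t t' : A ⊗[R] (A ⊗[R] A))
    (ht : ∀ x y z, productMap (ev φ x) (productMap (ev φ y) (ev φ z)) t =
      productMap (ev φ x) (productMap (ev φ y) (ev φ z)) t') : t = t' := by
  refine eq_of_forall_productMap hH (fun q : X × X => productMap (ev φ q.1) (ev φ q.2)) ?_ t t'
    (fun x q => ht x q.1 q.2)
  intro n hn
  exact eq_of_forall_ev₂ hH hφ n 0 (fun x y => by rw [hn (x, y), map_zero])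

/-- Distinct points give distinct evaluations. -/
theorem ev_injective (hH : IsLat φ) : Function.Injective (ev φ) := by
  classical
  intro x y hxy
  obtain ⟨ι, _, b, -, hsp⟩ := hH
  have h1 : ∀ u ∈ Submodule.span K (Set.range fun i => φ (b i)), u x = u y := by
    intro u hu
    induction hu using Submodule.span_induction with
    | mem u hu =>
      obtain ⟨i, rfl⟩ := hu
      exact congrArg (fun f => f (b i)) hxy
    | zero => rfl
    | add u v _ _ hu hv => rw [Pi.add_apply, Pi.add_apply, hu, hv]
    | smul c u _ hu => rw [Pi.smul_apply, Pi.smul_apply, hu]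
  have h2 := h1 (Pi.single x 1) (by rw [hsp]; exact Submodule.mem_top)
  by_contra hne
  rw [Pi.single_eq_same, Pi.single_eq_of_ne (Ne.symm hne)] at h2
  exact one_ne_zero h2

/-- Every `R`-algebra homomorphism `A → K` is the evaluation at a point. -/
theorem exists_eq_ev [Finite X] (hH : IsLat φ) (f : A →ₐ[R] K) : ∃ x, f = ev φ x := by
  classical
  have := Fintype.ofFinite X
  obtain ⟨ι, _, b, hli, hsp⟩ := hH
  let B : Module.Basis ι K (X → K) := Module.Basis.mk hli hsp.ge
  have hB : ∀ i, B i = φ (b i) := fun i => Module.Basis.mk_apply hli hsp.ge i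
  let F : (X → K) →ₗ[K] K := B.constr K (fun i => f (b i))
  have hFb : ∀ i, F (φ (b i)) = f (b i) := by
    intro i
    rw [← hB i]
    exact B.constr_basis K _ i
  have hF : ∀ a : A, F (φ a) = f a := by
    intro a
    conv_lhs => rw [← b.sum_repr a]
    conv_rhs => rw [← b.sum_repr a]
    rw [map_sum, map_sum, map_sum]
    refine Finset.sum_congr rfl fun i _ => ?_
    rw [map_smul φ, map_smul f, ← algebraMap_smul K (b.repr a i) (φ (b i)), map_smul F, hFb,
      algebraMap_smul]
  have hmul : ∀ (a : A) (v : X → K), F (φ a * v) = f a * F v := by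
    intro a
    have h1 : F ∘ₗ LinearMap.mulLeft K (φ a) = f a • F := by
      apply B.ext
      intro j
      rw [hB, LinearMap.comp_apply, LinearMap.mulLeft_apply, ← map_mul, hF, map_mul,
        LinearMap.smul_apply, hFb, smul_eq_mul]
    intro v
    exact congrArg (fun L => L v) h1
  have hsum : ∑ x : X, F (Pi.single x 1) = 1 := by
    have h1 : ∑ x : X, (Pi.single x 1 : X → K) = 1 := by
      funext y
      rw [Finset.sum_apply, Finset.sum_eq_single y]
      · simp
      · intro x _ hx
        exact Pi.single_eq_of_ne (Ne.symm hx) _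
      · intro h
        exact absurd (Finset.mem_univ y) h
    rw [← map_sum, h1, ← map_one f, ← hF 1, map_one φ]
  obtain ⟨x, hx⟩ : ∃ x : X, F (Pi.single x 1) ≠ 0 := by
    by_contra hcon
    push Not at hcon
    rw [Finset.sum_eq_zero (fun x _ => hcon x)] at hsum
    exact zero_ne_one hsum
  refine ⟨x, AlgHom.ext fun a => ?_⟩
  have h1 := hmul a (Pi.single x 1)
  have h2 : φ a * Pi.single x 1 = φ a x • (Pi.single x 1 : X → K) := by
    funext y
    by_cases hy : y = x
    · subst hy
      simp
    · simp [Pi.single_eq_of_ne hy]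
  rw [h2, map_smul, smul_eq_mul] at h1
  exact (mul_right_cancel₀ hx h1).symm

end General

section TensorLemmas

variable {A B C A' B' T : Type} [CommRing A] [Algebra R A] [CommRing B] [Algebra R B]
  [CommRing C] [Algebra R C] [CommRing A'] [Algebra R A'] [CommRing B'] [Algebra R B']
  [CommRing T] [Algebra R T]

theorem productMap_comp_map (f : A →ₐ[R] T) (g : B →ₐ[R] T) (u : A' →ₐ[R] A) (v : B' →ₐ[R] B) :
    (productMap f g).comp (Algebra.TensorProduct.map u v) = productMap (f.comp u) (g.comp v) := by
  ext <;> simp

theorem productMap_comp_assoc (f : A →ₐ[R] T) (g : B →ₐ[R] T) (h : C →ₐ[R] T) :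
    (productMap f (productMap g h)).comp (Algebra.TensorProduct.assoc R R R A B C).toAlgHom =
      productMap (productMap f g) h := by
  ext x
  · simp
  · simp
  · have : (1 : A ⊗[R] B) = (1 : A) ⊗ₜ (1 : B) := rfl
    simp [this]

theorem productMap_comp_comm (f : A →ₐ[R] T) (g : B →ₐ[R] T) (t : A ⊗[R] B) :
    productMap g f (TensorProduct.comm R A B t) = productMap f g t := by
  induction t with
  | zero => simp
  | tmul a b => simp [mul_comm]
  | add x y hx hy => rw [map_add, map_add, map_add, hx, hy]

theorem comp_lid (f : A →ₐ[R] T) :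
    f.comp (Algebra.TensorProduct.lid R A).toAlgHom = productMap (Algebra.ofId R T) f := by
  ext
  simp

theorem comp_rid (f : A →ₐ[R] T) :
    f.comp (Algebra.TensorProduct.rid R R A).toAlgHom = productMap f (Algebra.ofId R T) := by
  ext
  simp

theorem apply_mul'_rTensor (f : A →ₐ[R] T) (S : A →ₐ[R] A) (t : A ⊗[R] A) :
    f (LinearMap.mul' R A (S.toLinearMap.rTensor A t)) = productMap (f.comp S) f t := by
  induction t with
  | zero => simp
  | tmul a b => simp
  | add x y hx hy => rw [map_add, map_add, map_add, map_add, hx, hy]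

theorem apply_mul'_lTensor (f : A →ₐ[R] T) (S : A →ₐ[R] A) (t : A ⊗[R] A) :
    f (LinearMap.mul' R A (S.toLinearMap.lTensor A t)) = productMap f (f.comp S) t := by
  induction t with
  | zero => simp
  | tmul a b => simp
  | add x y hx hy => rw [map_add, map_add, map_add, map_add, hx, hy]

end TensorLemmas

section Group

variable {Γ A : Type} [AddCommGroup Γ] [CommRing A] [Algebra R A]

/-- The hypotheses: `φ` identifies `A` with a full lattice of functions on the group `Γ`, closed
under comultiplication, inversion, and with `R`-rational values at the origin. -/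
structure IsGroupLat (φ : A →ₐ[R] (Γ → K)) : Prop where
  inj : Function.Injective φ
  lat : IsLat φ
  base : Function.Injective (algebraMap R K)
  comul : ∀ h : A, ∃ t : A ⊗[R] A, ∀ x y, productMap (ev φ x) (ev φ y) t = φ h (x + y)
  neg : ∀ h : A, ∃ h' : A, ∀ x, φ h' x = φ h (-x)
  zero : ∀ h : A, ∃ r : R, algebraMap R K r = φ h 0

variable {φ : A →ₐ[R] (Γ → K)} (D : IsGroupLat φ)

/-- The comultiplication. -/
def comulHom : A →ₐ[R] A ⊗[R] A where
  toFun h := (D.comul h).choose
  map_one' := by
    apply eq_of_forall_ev₂ D.lat D.inj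
    intro x y
    rw [(D.comul 1).choose_spec, map_one, map_one, Pi.one_apply]
  map_mul' a b := by
    apply eq_of_forall_ev₂ D.lat D.inj
    intro x y
    rw [(D.comul (a * b)).choose_spec, map_mul, map_mul, (D.comul a).choose_spec,
      (D.comul b).choose_spec, Pi.mul_apply]
  map_zero' := by
    apply eq_of_forall_ev₂ D.lat D.inj
    intro x y
    rw [(D.comul 0).choose_spec, map_zero, map_zero, Pi.zero_apply]
  map_add' a b := by
    apply eq_of_forall_ev₂ D.lat D.inj
    intro x y
    rw [(D.comul (a + b)).choose_spec, map_add, map_add, (D.comul a).choose_spec,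
      (D.comul b).choose_spec, Pi.add_apply]
  commutes' r := by
    apply eq_of_forall_ev₂ D.lat D.inj
    intro x y
    rw [(D.comul (algebraMap R A r)).choose_spec, AlgHom.commutes, AlgHom.commutes,
      Pi.algebraMap_apply]

theorem comulHom_spec (h : A) (x y : Γ) :
    productMap (ev φ x) (ev φ y) (comulHom D h) = φ h (x + y) :=
  (D.comul h).choose_spec x y

theorem productMap_comp_comulHom (x y : Γ) :
    (productMap (ev φ x) (ev φ y)).comp (comulHom D) = ev φ (x + y) :=
  AlgHom.ext fun h => comulHom_spec D h x y

/-- The counit. -/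
def counitHom : A →ₐ[R] R where
  toFun h := (D.zero h).choose
  map_one' := by
    apply D.base
    rw [(D.zero 1).choose_spec, map_one, map_one, Pi.one_apply]
  map_mul' a b := by
    apply D.base
    rw [(D.zero (a * b)).choose_spec, map_mul, map_mul, (D.zero a).choose_spec,
      (D.zero b).choose_spec, Pi.mul_apply]
  map_zero' := by
    apply D.base
    rw [(D.zero 0).choose_spec, map_zero, map_zero, Pi.zero_apply]
  map_add' a b := by
    apply D.base
    rw [(D.zero (a + b)).choose_spec, map_add, map_add, (D.zero a).choose_spec,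
      (D.zero b).choose_spec, Pi.add_apply]
  commutes' r := by
    apply D.base
    rw [(D.zero (algebraMap R A r)).choose_spec, AlgHom.commutes, Pi.algebraMap_apply]
    rfl

theorem counitHom_spec (h : A) : algebraMap R K (counitHom D h) = φ h 0 :=
  (D.zero h).choose_spec

theorem ofId_comp_counitHom : (Algebra.ofId R K).comp (counitHom D) = ev φ 0 :=
  AlgHom.ext fun h => counitHom_spec D h

/-- The antipode. -/
def antipodeHom : A →ₐ[R] A where
  toFun h := (D.neg h).choose
  map_one' := by
    apply D.inj
    funext x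
    rw [(D.neg 1).choose_spec, map_one, Pi.one_apply, Pi.one_apply]
  map_mul' a b := by
    apply D.inj
    funext x
    rw [(D.neg (a * b)).choose_spec, map_mul, map_mul, Pi.mul_apply, Pi.mul_apply,
      (D.neg a).choose_spec, (D.neg b).choose_spec]
  map_zero' := by
    apply D.inj
    funext x
    rw [(D.neg 0).choose_spec, map_zero, Pi.zero_apply, Pi.zero_apply]
  map_add' a b := by
    apply D.inj
    funext x
    rw [(D.neg (a + b)).choose_spec, map_add, map_add, Pi.add_apply, Pi.add_apply,
      (D.neg a).choose_spec, (D.neg b).choose_spec]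
  commutes' r := by
    apply D.inj
    funext x
    rw [(D.neg (algebraMap R A r)).choose_spec, AlgHom.commutes, Pi.algebraMap_apply,
      Pi.algebraMap_apply]

theorem antipodeHom_spec (h : A) (x : Γ) : φ (antipodeHom D h) x = φ h (-x) :=
  (D.neg h).choose_spec x

theorem ev_comp_antipodeHom (x : Γ) : (ev φ x).comp (antipodeHom D) = ev φ (-x) :=
  AlgHom.ext fun h => antipodeHom_spec D h x

theorem coassoc :
    (Algebra.TensorProduct.assoc R R R A A A).toAlgHom.comp
      ((Algebra.TensorProduct.map (comulHom D) (.id R A)).comp (comulHom D))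
      = (Algebra.TensorProduct.map (.id R A) (comulHom D)).comp (comulHom D) := by
  apply AlgHom.ext
  intro h
  apply eq_of_forall_ev₃ D.lat D.inj
  intro x y z
  have h1 : (productMap (ev φ x) (productMap (ev φ y) (ev φ z))).comp
      ((Algebra.TensorProduct.assoc R R R A A A).toAlgHom.comp
      ((Algebra.TensorProduct.map (comulHom D) (.id R A)).comp (comulHom D))) =
        ev φ (x + y + z) := by
    rw [← AlgHom.comp_assoc, productMap_comp_assoc, ← AlgHom.comp_assoc, productMap_comp_map,
      productMap_comp_comulHom, AlgHom.comp_id, productMap_comp_comulHom]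
  have h2 : (productMap (ev φ x) (productMap (ev φ y) (ev φ z))).comp
      ((Algebra.TensorProduct.map (.id R A) (comulHom D)).comp (comulHom D)) =
        ev φ (x + (y + z)) := by
    rw [← AlgHom.comp_assoc, productMap_comp_map, productMap_comp_comulHom, AlgHom.comp_id,
      productMap_comp_comulHom]
  have h1' := congrArg (fun f => f h) h1
  have h2' := congrArg (fun f => f h) h2
  simp only [AlgHom.comp_apply] at h1' h2'
  simp only [AlgHom.comp_apply]
  rw [h1', h2', add_assoc]

theorem rTensor_counit :
    (Algebra.TensorProduct.map (counitHom D) (.id R A)).comp (comulHom D)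
      = (Algebra.TensorProduct.lid R A).symm := by
  apply AlgHom.ext
  intro h
  apply (Algebra.TensorProduct.lid R A).injective
  apply D.inj
  funext y
  have h1 : ((ev φ y).comp (Algebra.TensorProduct.lid R A).toAlgHom).comp
      ((Algebra.TensorProduct.map (counitHom D) (.id R A)).comp (comulHom D)) = ev φ (0 + y) := by
    rw [comp_lid, ← AlgHom.comp_assoc, productMap_comp_map, ofId_comp_counitHom, AlgHom.comp_id,
      productMap_comp_comulHom]
  have h1' := congrArg (fun f => f h) h1
  rw [zero_add] at h1'
  simpa using h1'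

theorem lTensor_counit :
    (Algebra.TensorProduct.map (.id R A) (counitHom D)).comp (comulHom D)
      = (Algebra.TensorProduct.rid R R A).symm := by
  apply AlgHom.ext
  intro h
  apply (Algebra.TensorProduct.rid R R A).injective
  apply D.inj
  funext y
  have h1 : ((ev φ y).comp (Algebra.TensorProduct.rid R R A).toAlgHom).comp
      ((Algebra.TensorProduct.map (.id R A) (counitHom D)).comp (comulHom D)) = ev φ (y + 0) := by
    rw [comp_rid, ← AlgHom.comp_assoc, productMap_comp_map, ofId_comp_counitHom, AlgHom.comp_id,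
      productMap_comp_comulHom]
  have h1' := congrArg (fun f => f h) h1
  rw [add_zero] at h1'
  simpa using h1'

/-- The bialgebra structure. -/
@[reducible] def bialgebra : Bialgebra R A :=
  Bialgebra.ofAlgHom (comulHom D) (counitHom D) (coassoc D) (rTensor_counit D) (lTensor_counit D)

/-- The Hopf algebra structure. -/
@[reducible] def hopfAlgebra : HopfAlgebra R A :=
  letI := bialgebra D
  { antipode := (antipodeHom D).toLinearMap
    mul_antipode_rTensor_comul := by
      apply LinearMap.ext
      intro h
      apply D.inj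
      funext x
      have h1 := apply_mul'_rTensor (ev φ x) (antipodeHom D) (comulHom D h)
      rw [ev_comp_antipodeHom, comulHom_spec, neg_add_cancel, ← counitHom_spec D] at h1
      have h2 : φ (algebraMap R A (counitHom D h)) x = algebraMap R K (counitHom D h) := by
        rw [AlgHom.commutes, Pi.algebraMap_apply]
      exact h1.trans h2.symm
    mul_antipode_lTensor_comul := by
      apply LinearMap.ext
      intro h
      apply D.inj
      funext x
      have h1 := apply_mul'_lTensor (ev φ x) (antipodeHom D) (comulHom D h)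
      rw [ev_comp_antipodeHom, comulHom_spec, add_neg_cancel, ← counitHom_spec D] at h1
      have h2 : φ (algebraMap R A (counitHom D h)) x = algebraMap R K (counitHom D h) := by
        rw [AlgHom.commutes, Pi.algebraMap_apply]
      exact h1.trans h2.symm }

theorem isCocomm : letI := hopfAlgebra D; Coalgebra.IsCocomm R A := by
  let _ := hopfAlgebra D
  constructor
  apply LinearMap.ext
  intro h
  apply eq_of_forall_ev₂ D.lat D.inj
  intro x y
  have h1 := productMap_comp_comm (ev φ y) (ev φ x) (comulHom D h)
  rw [comulHom_spec, add_comm, ← comulHom_spec D h x y] at h1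
  exact h1

theorem toConv_ev_mul (x y : Γ) : letI := hopfAlgebra D
    (WithConv.toConv (ev φ x) * WithConv.toConv (ev φ y) : WithConv (A →ₐ[R] K)) =
      WithConv.toConv (ev φ (x + y)) := by
  let _ := hopfAlgebra D
  have h1 : Bialgebra.comulAlgHom R A = comulHom D := AlgHom.ext fun h => rfl
  rw [AlgHom.convMul_def, ← productMap_comp_comulHom D x y, h1, ← AlgHom.comp_assoc,
    ← Algebra.TensorProduct.productMap_eq_comp_map]

/-- The points of the Hopf algebra. -/
def pointsEquiv [Finite Γ] : WithConv (A →ₐ[R] K) ≃ Γ :=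
  (Equiv.ofBijective (fun x : Γ => (WithConv.toConv (ev φ x) : WithConv (A →ₐ[R] K)))
    ⟨fun _ _ h => ev_injective D.lat (WithConv.toConv_injective h), fun f => by
      obtain ⟨x, hx⟩ := exists_eq_ev D.lat f.ofConv
      exact ⟨x, by
        show WithConv.toConv (ev φ x) = f
        rw [← hx, WithConv.toConv_ofConv]⟩⟩).symm

theorem toConv_ev_pointsEquiv [Finite Γ] (f : WithConv (A →ₐ[R] K)) :
    WithConv.toConv (ev φ (pointsEquiv D f)) = f :=
  (pointsEquiv D).symm_apply_apply f

theorem pointsEquiv_toConv_ev [Finite Γ] (x : Γ) :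
    pointsEquiv D (WithConv.toConv (ev φ x)) = x :=
  (pointsEquiv D).apply_symm_apply x

theorem pointsEquiv_mul [Finite Γ] : letI := hopfAlgebra D
    ∀ f g : WithConv (A →ₐ[R] K), pointsEquiv D (f * g) = pointsEquiv D f + pointsEquiv D g := by
  let _ := hopfAlgebra D
  intro f g
  conv_lhs => rw [← toConv_ev_pointsEquiv D f, ← toConv_ev_pointsEquiv D g]
  rw [toConv_ev_mul, pointsEquiv_toConv_ev]

theorem apply_eq [Finite Γ] (f : WithConv (A →ₐ[R] K)) (h : A) : f h = φ h (pointsEquiv D f) := by
  conv_lhs => rw [← toConv_ev_pointsEquiv D f]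
  rfl

/-- Elements of the span of the product functions come from the tensor product. -/
theorem exists_tensor_of_mem_span {X : Type} (ψ : A →ₐ[R] (X → K)) {F : X × X → K}
    (hF : F ∈ Submodule.span R {F : X × X → K | ∃ a b : A, F = fun q => ψ a q.1 * ψ b q.2}) :
    ∃ t : A ⊗[R] A, ∀ x y, productMap (ev ψ x) (ev ψ y) t = F (x, y) := by
  induction hF using Submodule.span_induction with
  | mem F hF =>
    obtain ⟨a, b, rfl⟩ := hF
    exact ⟨a ⊗ₜ b, fun x y => by simp⟩
  | zero => exact ⟨0, fun x y => by simp⟩
  | add F G _ _ hF hG =>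
    obtain ⟨t, ht⟩ := hF
    obtain ⟨s, hs⟩ := hG
    exact ⟨t + s, fun x y => by rw [map_add, ht, hs, Pi.add_apply]⟩
  | smul r F _ hF =>
    obtain ⟨t, ht⟩ := hF
    exact ⟨r • t, fun x y => by rw [map_smul, ht, Pi.smul_apply]⟩

end Group

end HopfOfLattice

open HopfOfLattice in
/-- A4 : the main construction.  `comul := (mulMap)⁻¹ ∘ (h ↦ h ∘ +)`; all axioms are checked after
evaluation at points. -/
theorem exists_hopfAlgebra_of_lattice {R K Γ : Type} [CommRing R] [Field K] [Algebra R K]
    [AddCommGroup Γ] [Finite Γ] (hinj : Function.Injective (algebraMap R K))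
    (H : Subalgebra R (Γ → K)) (hH : IsFullLattice H)
    (hcomul : ∀ h ∈ H, (fun q : Γ × Γ => h (q.1 + q.2)) ∈ Submodule.span R (prodFun H H))
    (hneg : ∀ h ∈ H, (fun x => h (-x)) ∈ H)
    (hzero : ∀ h ∈ H, h 0 ∈ (algebraMap R K).range) :
    ∃ (H' : Type) (_ : CommRing H') (_ : HopfAlgebra R H'),
      Module.Finite R H' ∧ Module.Free R H' ∧ Coalgebra.IsCocomm R H' ∧
      ∃ (φ : H' →ₐ[R] (Γ → K)) (e : WithConv (H' →ₐ[R] K) ≃ Γ),
        Function.Injective φ ∧ φ.range = H ∧
        (∀ f g : WithConv (H' →ₐ[R] K), e (f * g) = e f + e g) ∧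
        ∀ (f : WithConv (H' →ₐ[R] K)) (h : H'), f h = φ h (e f) := by
  have D : IsGroupLat H.val :=
    { inj := Subtype.val_injective
      lat := hH
      base := hinj
      comul := by
        intro h
        refine exists_tensor_of_mem_span H.val (F := fun q => (h : Γ → K) (q.1 + q.2)) ?_
        refine Submodule.span_mono ?_ (hcomul h h.2)
        rintro F ⟨a, ha, b, hb, rfl⟩
        exact ⟨⟨a, ha⟩, ⟨b, hb⟩, rfl⟩
      neg := fun h => ⟨⟨_, hneg h h.2⟩, fun x => rfl⟩
      zero := fun h => hzero h h.2 }
  obtain ⟨ι, _, b, -, -⟩ := hH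
  exact ⟨H, inferInstance, hopfAlgebra D, Module.Finite.of_basis b, Module.Free.of_basis b,
    isCocomm D, H.val, pointsEquiv D, Subtype.val_injective, H.range_val, pointsEquiv_mul D,
    apply_eq D⟩

end Fermat.Agent.S19
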