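/-
S19 Part A, block A5: a Hopf order gives a finite flat group scheme.
-/
import Fermat.Agent.S19.Defs
import Fermat.Agent.S19.BaseRing
import Fermat.Agent.S19.FullLattice
import Fermat.Agent.S19.HopfOfLattice

set_option autoImplicit false

namespace Fermat.Agent.S19

/-- A5c -/
theorem IsHopfOrder.zero_mem {p : ℕ} [Fact p.Prime] {M : Type} [AddCommGroup M] [Finite M]
    [DistribMulAction Gal M] {H : Subalgebra (Rl p) (M → Qb)} (hH : IsHopfOrder p H)
    {h : M → Qb} (hh : h ∈ H) : h 0 ∈ (algebraMap (Rl p) Qb).range := by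
  have hfix : ∀ σ : Gal, σ (h 0) = h 0 := by
    intro σ
    rw [← hH.equivariant h hh σ 0, smul_zero]
  obtain ⟨q, hq⟩ := exists_rat_of_fixed (h 0) hfix
  have hint : IsIntegral (Rl p) h := IsIntegral.of_mem_of_fg H hH.fg h hh
  have hint0 : IsIntegral (Rl p) (h 0) := hint.map (Pi.evalAlgHom (Rl p) (fun _ : M => Qb) 0)
  rw [← hq] at hint0
  exact ⟨⟨q, mem_Rl_of_isIntegral p q hint0⟩, hq⟩

/-- A5a : multiples: `x ↦ h (k • x)` stays in `H`. -/
theorem IsHopfOrder.nsmul_mem {p : ℕ} [Fact p.Prime] {M : Type} [AddCommGroup M] [Finite M]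
    [DistribMulAction Gal M] {H : Subalgebra (Rl p) (M → Qb)} (hH : IsHopfOrder p H)
    (k : ℕ) {h : M → Qb} (hh : h ∈ H) : (fun x => h (k • x)) ∈ H := by
  induction k generalizing h with
  | zero =>
    obtain ⟨c, hc⟩ := hH.zero_mem hh
    have : (fun x : M => h (0 • x)) = algebraMap (Rl p) (M → Qb) c := by
      funext x
      rw [zero_smul, ← hc]
      rfl
    rw [this]
    exact H.algebraMap_mem c
  | succ k ih =>
    let Φ : (M × M → Qb) →ₗ[Rl p] (M → Qb) :=
      { toFun := fun F x => F (k • x, x)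
        map_add' := fun _ _ => rfl
        map_smul' := fun _ _ => rfl }
    have hle : Submodule.span (Rl p) (prodFun H H) ≤ (Subalgebra.toSubmodule H).comap Φ := by
      rw [Submodule.span_le]
      rintro F ⟨a, ha, b, hb, rfl⟩
      exact H.mul_mem (ih ha) hb
    have h1 := hle (hH.comul h hh)
    have h2 : (fun x => h ((k + 1) • x)) = Φ (fun q : M × M => h (q.1 + q.2)) := by
      funext x
      show h ((k + 1) • x) = h (k • x + x)
      rw [succ_nsmul]
    rw [h2]
    exact h1

/-- A5b -/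
theorem IsHopfOrder.neg_mem {p : ℕ} [Fact p.Prime] {M : Type} [AddCommGroup M] [Finite M]
    [DistribMulAction Gal M] {H : Subalgebra (Rl p) (M → Qb)} (hH : IsHopfOrder p H)
    {h : M → Qb} (hh : h ∈ H) : (fun x => h (-x)) ∈ H := by
  have h1 := hH.nsmul_mem (Nat.card M - 1) hh
  have h2 : (fun x : M => h (-x)) = fun x => h ((Nat.card M - 1) • x) := by
    funext x
    congr 1
    have hpos : 0 < Nat.card M := Nat.card_pos
    have h3 : (Nat.card M - 1) • x + x = 0 := by
      rw [← succ_nsmul, Nat.sub_add_cancel hpos, card_nsmul_eq_zero']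
    exact (eq_neg_of_add_eq_zero_left h3).symm
  rw [h2]
  exact h1

/-- A5 -/
theorem HasHopfOrder.isFlatModule {p : ℕ} [Fact p.Prime] {M : Type} [AddCommGroup M] [Finite M]
    [DistribMulAction Gal M] (h : HasHopfOrder p M) : IsFlatModule p M := by
  obtain ⟨H, hH⟩ := h
  have hinj : Function.Injective (algebraMap (Rl p) Qb) :=
    (algebraMap ℚ Qb).injective.comp Subtype.val_injective
  obtain ⟨H', i1, i2, hfin, hfree, hcocomm, φ, e, -, hrange, hmul, hev⟩ :=
    exists_hopfAlgebra_of_lattice hinj H hH.isFullLattice hH.comul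
      (fun _ hh => hH.neg_mem hh) (fun _ hh => hH.zero_mem hh)
  refine ⟨H', i1, i2, hfin, inferInstance, hcocomm, e, hmul, ?_⟩
  intro σ f g hfg
  by_contra hne
  obtain ⟨h0, hh0, hsep⟩ := hH.separates _ _ hne
  rw [← hrange] at hh0
  obtain ⟨h', rfl⟩ := hh0
  apply hsep
  have hmem : φ h' ∈ H := by
    rw [← hrange]
    exact ⟨h', rfl⟩
  show φ h' (e g) = φ h' (σ • e f)
  rw [hH.equivariant _ hmem, ← hev, ← hev, hfg]

end Fermat.Agent.S19
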